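/-
Program MAZ (S15), chapter MODULI, brick MOD-B/(B2-i) (helper2).

**The division polynomials of a nodal cubic, closed form.**  Pure sequence statement: for
`x = β u / (u - 1)²` the values at `x` of `Ψ₂Sq²`, `Ψ₃`, `preΨ₄` of the nodal cubic
`y² + a₁ x y = x³ + a₂ x²` (`β = b₂ = a₁² + 4 a₂`) are `bB`, `cC`, `dD` below, and the
pre-normalised elliptic divisibility sequence with these parameters is

  `E (2k+1) = β^(2k²+2k) u^(2k²+k)  (u^(2k+1) - 1) / (u - 1)^(4k²+4k+1)`,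
  `E (2k+2) = β^(2k²+4k) u^(2k²+3k) (u^(2k+2) - 1) / ((u + 1) (u - 1)^(4k²+8k+1))`

(the degenerate `σ`-function formula `ψ_n = sinh (n z / 2) / sinh (z / 2)^(n²)`, `u = e^z`).
Proof: the Somos-4 relation `WardFinal.preNormEDS_somos` + induction (division by `E (n - 2) ≠ 0`
needs that `u` is not a root of unity).
-/
import Mathlib
import Fermat.Agent.DivPoly.WardFinal

set_option autoImplicit false
set_option linter.unusedSectionVars false
set_option linter.unusedVariables false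

namespace Fermat.Agent.MAZ.Moduli.NodalEDS2

variable {K : Type*} [Field K] (β u : K)

/-- `Ψ₂Sq(x)²`. -/
def bB : K := (β ^ 3 * u ^ 2 * (u + 1) ^ 2 / (u - 1) ^ 6) ^ 2

/-- `Ψ₃(x)`. -/
def cC : K := β ^ 4 * u ^ 3 * (u ^ 2 + u + 1) / (u - 1) ^ 8

/-- `preΨ₄(x)`. -/
def dD : K := β ^ 6 * u ^ 5 * (u ^ 2 + 1) / (u - 1) ^ 12

/-- closed form of the term of index `2k+1`. -/
def Fodd (k : ℕ) : K :=
  β ^ (2 * k ^ 2 + 2 * k) * u ^ (2 * k ^ 2 + k) * (u ^ (2 * k + 1) - 1) /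
    (u - 1) ^ (4 * k ^ 2 + 4 * k + 1)

/-- closed form of the term of index `2k+2`. -/
def Feven (k : ℕ) : K :=
  β ^ (2 * k ^ 2 + 4 * k) * u ^ (2 * k ^ 2 + 3 * k) * (u ^ (2 * k + 2) - 1) /
    ((u + 1) * (u - 1) ^ (4 * k ^ 2 + 8 * k + 1))

variable {β u}

theorem Fodd_zero (h1 : u - 1 ≠ 0) : Fodd β u 0 = 1 := by
  unfold Fodd
  field_simp
  ring

theorem Feven_zero (h1 : u - 1 ≠ 0) (h2 : u + 1 ≠ 0) : Feven β u 0 = 1 := by
  unfold Feven
  field_simp
  ring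

theorem Fodd_one (h1 : u - 1 ≠ 0) : Fodd β u 1 = cC β u := by
  unfold Fodd cC
  field_simp
  ring

theorem Feven_one (h1 : u - 1 ≠ 0) (h2 : u + 1 ≠ 0) : Feven β u 1 = dD β u := by
  unfold Feven dD
  field_simp
  ring

/-- The closed forms satisfy the Somos relation at an odd index. -/
theorem somos_odd (h1 : u - 1 ≠ 0) (h2 : u + 1 ≠ 0) (j : ℕ) :
    Fodd β u (j + 2) * Fodd β u j =
      Feven β u (j + 1) * Feven β u j * bB β u - cC β u * Fodd β u (j + 1) ^ 2 := by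
  unfold Fodd Feven bB cC
  field_simp
  ring

/-- The closed forms satisfy the Somos relation at an even index. -/
theorem somos_even (h1 : u - 1 ≠ 0) (h2 : u + 1 ≠ 0) (j : ℕ) :
    Feven β u (j + 2) * Feven β u j =
      Fodd β u (j + 2) * Fodd β u (j + 1) - cC β u * Feven β u (j + 1) ^ 2 := by
  unfold Fodd Feven cC
  field_simp
  ring

section Main

variable (hβ : β ≠ 0) (hu0 : u ≠ 0) (hu : ∀ n : ℕ, 0 < n → u ^ n ≠ 1)
include hβ hu0 hu

theorem sub_one_ne_zero : u - 1 ≠ 0 := by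
  have := hu 1 one_pos
  rw [pow_one] at this
  exact sub_ne_zero.mpr this

theorem add_one_ne_zero : u + 1 ≠ 0 := by
  intro h
  have h2 := hu 2 (by norm_num)
  apply h2
  have : u = -1 := eq_neg_of_add_eq_zero_left h
  rw [this]
  norm_num

theorem Fodd_ne_zero (k : ℕ) : Fodd β u k ≠ 0 := by
  unfold Fodd
  refine div_ne_zero (mul_ne_zero (mul_ne_zero (pow_ne_zero _ hβ) (pow_ne_zero _ hu0)) ?_)
    (pow_ne_zero _ (sub_one_ne_zero hβ hu0 hu))
  exact sub_ne_zero.mpr (hu _ (by omega))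

theorem Feven_ne_zero (k : ℕ) : Feven β u k ≠ 0 := by
  unfold Feven
  refine div_ne_zero (mul_ne_zero (mul_ne_zero (pow_ne_zero _ hβ) (pow_ne_zero _ hu0)) ?_)
    (mul_ne_zero (add_one_ne_zero hβ hu0 hu) (pow_ne_zero _ (sub_one_ne_zero hβ hu0 hu)))
  exact sub_ne_zero.mpr (hu _ (by omega))

/-- **Closed form of the pre-normalised EDS of a nodal cubic.** -/
theorem preNormEDS'_eq (k : ℕ) :
    preNormEDS' (bB β u) (cC β u) (dD β u) (2 * k + 1) = Fodd β u k ∧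
      preNormEDS' (bB β u) (cC β u) (dD β u) (2 * k + 2) = Feven β u k := by
  have h1 := sub_one_ne_zero hβ hu0 hu
  have h2 := add_one_ne_zero hβ hu0 hu
  suffices H : ∀ j : ℕ,
      (preNormEDS' (bB β u) (cC β u) (dD β u) (2 * j + 1) = Fodd β u j ∧
        preNormEDS' (bB β u) (cC β u) (dD β u) (2 * j + 2) = Feven β u j) ∧
      (preNormEDS' (bB β u) (cC β u) (dD β u) (2 * (j + 1) + 1) = Fodd β u (j + 1) ∧
        preNormEDS' (bB β u) (cC β u) (dD β u) (2 * (j + 1) + 2) = Feven β u (j + 1)) from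
    (H k).1
  intro j
  induction j with
  | zero =>
    refine ⟨⟨?_, ?_⟩, ?_, ?_⟩
    · rw [Fodd_zero h1]; simp
    · rw [Feven_zero h1 h2]; simp
    · rw [Fodd_one h1]; simp
    · rw [Feven_one h1 h2]; simp
  | succ j ih =>
    obtain ⟨⟨ho0, he0⟩, ho1, he1⟩ := ih
    refine ⟨⟨ho1, he1⟩, ?_⟩
    -- the odd term
    have hodd : preNormEDS' (bB β u) (cC β u) (dD β u) (2 * (j + 1 + 1) + 1) =
        Fodd β u (j + 1 + 1) := by
      have hs := Fermat.Agent.DivPoly.WardFinal.preNormEDS_somos (bB β u) (cC β u) (dD β u)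
        ((2 * j + 3 : ℕ) : ℤ)
      have hne : ¬ Even (((2 * j + 3 : ℕ) : ℤ)) := by
        rw [Int.even_coe_nat]
        rw [Nat.not_even_iff_odd]
        exact ⟨j + 1, by ring⟩
      rw [if_neg hne] at hs
      have e1 : (((2 * j + 3 : ℕ) : ℤ) + 2) = ((2 * (j + 1 + 1) + 1 : ℕ) : ℤ) := by push_cast; ring
      have e2 : (((2 * j + 3 : ℕ) : ℤ) - 2) = ((2 * j + 1 : ℕ) : ℤ) := by push_cast; ring
      have e3 : (((2 * j + 3 : ℕ) : ℤ) + 1) = ((2 * (j + 1) + 2 : ℕ) : ℤ) := by push_cast; ring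
      have e4 : (((2 * j + 3 : ℕ) : ℤ) - 1) = ((2 * j + 2 : ℕ) : ℤ) := by push_cast; ring
      have e5 : (((2 * j + 3 : ℕ) : ℤ)) = ((2 * (j + 1) + 1 : ℕ) : ℤ) := by push_cast; ring
      rw [e1, e2, e3, e4, e5] at hs
      simp only [preNormEDS_ofNat] at hs
      rw [ho0, he1, he0, ho1] at hs
      have key := somos_odd (β := β) h1 h2 j
      have : preNormEDS' (bB β u) (cC β u) (dD β u) (2 * (j + 1 + 1) + 1) * Fodd β u j =
          Fodd β u (j + 2) * Fodd β u j := by rw [hs, key]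
      exact mul_right_cancel₀ (Fodd_ne_zero hβ hu0 hu j) this
    refine ⟨hodd, ?_⟩
    -- the even term
    have hs := Fermat.Agent.DivPoly.WardFinal.preNormEDS_somos (bB β u) (cC β u) (dD β u)
      ((2 * j + 4 : ℕ) : ℤ)
    have hev : Even (((2 * j + 4 : ℕ) : ℤ)) := by
      rw [Int.even_coe_nat]
      exact ⟨j + 2, by ring⟩
    rw [if_pos hev, mul_one] at hs
    have e1 : (((2 * j + 4 : ℕ) : ℤ) + 2) = ((2 * (j + 1 + 1) + 2 : ℕ) : ℤ) := by push_cast; ring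
    have e2 : (((2 * j + 4 : ℕ) : ℤ) - 2) = ((2 * j + 2 : ℕ) : ℤ) := by push_cast; ring
    have e3 : (((2 * j + 4 : ℕ) : ℤ) + 1) = ((2 * (j + 1 + 1) + 1 : ℕ) : ℤ) := by push_cast; ring
    have e4 : (((2 * j + 4 : ℕ) : ℤ) - 1) = ((2 * (j + 1) + 1 : ℕ) : ℤ) := by push_cast; ring
    have e5 : (((2 * j + 4 : ℕ) : ℤ)) = ((2 * (j + 1) + 2 : ℕ) : ℤ) := by push_cast; ring
    rw [e1, e2, e3, e4, e5] at hs
    simp only [preNormEDS_ofNat] at hs
    rw [he0, hodd, ho1, he1] at hs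
    have key := somos_even (β := β) h1 h2 j
    have : preNormEDS' (bB β u) (cC β u) (dD β u) (2 * (j + 1 + 1) + 2) * Feven β u j =
        Feven β u (j + 2) * Feven β u j := by rw [hs, key]
    exact mul_right_cancel₀ (Feven_ne_zero hβ hu0 hu j) this

end Main

end Fermat.Agent.MAZ.Moduli.NodalEDS2
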