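/-
Program MAZ (S15), chapter MODULI, brick MOD-B/(B2) (helper2).

**The odd division polynomials of a nodal cubic** `N : y² + a₁ x y = x³ + a₂ x²` (`β = b₂`):

  `preΨ'_(2m+1)(N) = X^(m (2m+1)) * Hh β m`,

where `Hh β m ∈ R[X]` is the homogenised Dirichlet-kernel polynomial
`Hh β 0 = 1`, `Hh β 1 = β + 3X`, `Hh β (m+2) = (β + 2X) Hh β (m+1) - X² Hh β m`
(so `Hh β m (β u/(u-1)²) = β^m (u^(2m+1) - 1)/(u - 1)^(2m+1)`).
Proved over fields of characteristic `0` with `β ≠ 0` (closed form `NodalEDS2` at the infinitely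
many points `x = β k/(k-1)²`, `k = 2, 3, …`).
-/
import Mathlib
import Fermat.Agent.MAZ.Moduli.NodalEDS2

set_option autoImplicit false

open Polynomial

namespace Fermat.Agent.MAZ.Moduli.NodalPsi2

open Fermat.Agent.MAZ.Moduli.NodalEDS2

section Defs

variable {R : Type*} [CommRing R] (β : R)

/-- The homogenised Dirichlet-kernel polynomials. -/
noncomputable def Hh : ℕ → R[X]
  | 0 => 1
  | 1 => C β + 3 * X
  | (m + 2) => (C β + 2 * X) * Hh (m + 1) - X ^ 2 * Hh m

@[simp] theorem Hh_zero : Hh β 0 = 1 := by rw [Hh]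
@[simp] theorem Hh_one : Hh β 1 = C β + 3 * X := by rw [Hh]
theorem Hh_succ_succ (m : ℕ) :
    Hh β (m + 2) = (C β + 2 * X) * Hh β (m + 1) - X ^ 2 * Hh β m := by rw [Hh]

/-- `Ψ₂Sq²` of the nodal cubic. -/
noncomputable def pB : R[X] := (C 4 * X ^ 3 + C β * X ^ 2) ^ 2
/-- `Ψ₃` of the nodal cubic. -/
noncomputable def pC : R[X] := 3 * X ^ 4 + C β * X ^ 3
/-- `preΨ₄` of the nodal cubic. -/
noncomputable def pD : R[X] := 2 * X ^ 6 + C β * X ^ 5

theorem map_Hh {S : Type*} [CommRing S] (f : R →+* S) (m : ℕ) :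
    (Hh β m).map f = Hh (f β) m := by
  induction m using Nat.strong_induction_on with
  | _ m ih =>
    match m with
    | 0 => simp
    | 1 => simp [Polynomial.map_ofNat]
    | (m + 2) =>
      rw [Hh_succ_succ, Hh_succ_succ, Polynomial.map_sub, Polynomial.map_mul, Polynomial.map_mul,
        ih (m + 1) (by omega), ih m (by omega)]
      simp [Polynomial.map_ofNat]

end Defs

section Field

variable {K : Type*} [Field K] {β u : K}

theorem eval_Hh (h1 : u - 1 ≠ 0) (m : ℕ) :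
    (Hh β m).eval (β * u / (u - 1) ^ 2) =
      β ^ m * (u ^ (2 * m + 1) - 1) / (u - 1) ^ (2 * m + 1) := by
  induction m using Nat.strong_induction_on with
  | _ m ih =>
    match m with
    | 0 =>
      simp only [Hh_zero, eval_one]
      field_simp
      ring
    | 1 =>
      simp only [Hh_one, eval_add, eval_C, eval_mul, eval_ofNat, eval_X]
      field_simp
      ring
    | (m + 2) =>
      rw [Hh_succ_succ, eval_sub, eval_mul, eval_mul, ih (m + 1) (by omega), ih m (by omega)]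
      simp only [eval_add, eval_C, eval_mul, eval_ofNat, eval_X, eval_pow]
      field_simp
      ring

theorem eval_pB (h1 : u - 1 ≠ 0) : (pB β).eval (β * u / (u - 1) ^ 2) = bB β u := by
  unfold pB bB
  simp only [eval_add, eval_C, eval_mul, eval_X, eval_pow]
  field_simp
  ring

theorem eval_pC (h1 : u - 1 ≠ 0) : (pC β).eval (β * u / (u - 1) ^ 2) = cC β u := by
  unfold pC cC
  simp only [eval_add, eval_C, eval_mul, eval_ofNat, eval_X, eval_pow]
  field_simp
  ring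

theorem eval_pD (h1 : u - 1 ≠ 0) : (pD β).eval (β * u / (u - 1) ^ 2) = dD β u := by
  unfold pD dD
  simp only [eval_add, eval_C, eval_mul, eval_ofNat, eval_X, eval_pow]
  field_simp
  ring

/-- The two sides agree at every point `x = β u/(u-1)²` with `u` not a root of unity. -/
theorem eval_eq (hβ : β ≠ 0) (hu0 : u ≠ 0) (hu : ∀ n : ℕ, 0 < n → u ^ n ≠ 1) (m : ℕ) :
    (preNormEDS' (pB β) (pC β) (pD β) (2 * m + 1)).eval (β * u / (u - 1) ^ 2) =
      (X ^ (m * (2 * m + 1)) * Hh β m).eval (β * u / (u - 1) ^ 2) := by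
  have h1 := sub_one_ne_zero hβ hu0 hu
  rw [← coe_evalRingHom, map_preNormEDS', coe_evalRingHom, eval_pB h1, eval_pC h1, eval_pD h1,
    (preNormEDS'_eq hβ hu0 hu m).1, eval_mul, eval_pow, eval_X, eval_Hh h1]
  unfold Fodd
  rw [div_pow, mul_pow, ← pow_mul, div_mul_div_comm, div_eq_div_iff (pow_ne_zero _ h1)
    (mul_ne_zero (pow_ne_zero _ h1) (pow_ne_zero _ h1))]
  ring

theorem natCast_pow_ne_one [CharZero K] (k n : ℕ) (hn : 0 < n) : ((k + 2 : ℕ) : K) ^ n ≠ 1 := by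
  rw [← Nat.cast_pow]
  intro h
  have h' : (k + 2) ^ n = 1 := by exact_mod_cast h
  have : 2 ^ n ≤ (k + 2) ^ n := Nat.pow_le_pow_left (by omega) n
  have h2 : 2 ≤ 2 ^ n := by
    calc 2 = 2 ^ 1 := by norm_num
      _ ≤ 2 ^ n := Nat.pow_le_pow_right (by norm_num) hn
  omega

theorem sample_injective [CharZero K] (hβ : β ≠ 0) :
    Function.Injective (fun k : ℕ => β * ((k + 2 : ℕ) : K) / (((k + 2 : ℕ) : K) - 1) ^ 2) := by
  intro k k' h
  simp only at h
  have hk : (((k + 2 : ℕ) : K) - 1) = ((k + 1 : ℕ) : K) := by push_cast; ring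
  have hk' : (((k' + 2 : ℕ) : K) - 1) = ((k' + 1 : ℕ) : K) := by push_cast; ring
  rw [hk, hk'] at h
  have n1 : ((k + 1 : ℕ) : K) ≠ 0 := Nat.cast_ne_zero.mpr (by omega)
  have n2 : ((k' + 1 : ℕ) : K) ≠ 0 := Nat.cast_ne_zero.mpr (by omega)
  rw [div_eq_div_iff (pow_ne_zero _ n1) (pow_ne_zero _ n2), mul_assoc, mul_assoc] at h
  have h' := mul_left_cancel₀ hβ h
  have h'' : (k + 2) * (k' + 1) ^ 2 = (k' + 2) * (k + 1) ^ 2 := by exact_mod_cast h'
  have hz : ((k' : ℤ) - k) * ((k + 1) * (k' + 1) + (k + 1) + (k' + 1)) = 0 := by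
    have : ((k : ℤ) + 2) * (k' + 1) ^ 2 = (k' + 2) * (k + 1) ^ 2 := by exact_mod_cast h''
    linear_combination this
  rcases mul_eq_zero.mp hz with h0 | h0
  · omega
  · have : (0 : ℤ) < (k + 1) * (k' + 1) + (k + 1) + (k' + 1) := by positivity
    omega

/-- **The odd terms of the pre-normalised EDS of a nodal cubic, as polynomials.** -/
theorem preNormEDS'_poly_eq [CharZero K] (hβ : β ≠ 0) (m : ℕ) :
    preNormEDS' (pB β) (pC β) (pD β) (2 * m + 1) = X ^ (m * (2 * m + 1)) * Hh β m := by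
  apply Polynomial.eq_of_infinite_eval_eq
  refine Set.Infinite.mono ?_ (Set.infinite_range_of_injective (sample_injective (K := K) hβ))
  rintro x ⟨k, rfl⟩
  simp only [Set.mem_ofPred_eq]
  exact eval_eq hβ (Nat.cast_ne_zero.mpr (by omega)) (natCast_pow_ne_one k) m

end Field

section Curve

variable {K : Type*} [Field K] [CharZero K]

/-- **Odd division polynomials of a nodal cubic.** -/
theorem preΨ'_nodal (W : WeierstrassCurve K) (h3 : W.a₃ = 0) (h4 : W.a₄ = 0) (h6 : W.a₆ = 0)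
    (hb : W.b₂ ≠ 0) (m : ℕ) :
    W.preΨ' (2 * m + 1) = X ^ (m * (2 * m + 1)) * Hh W.b₂ m := by
  have e4 : W.b₄ = 0 := by rw [WeierstrassCurve.b₄, h3, h4]; ring
  have e6 : W.b₆ = 0 := by rw [WeierstrassCurve.b₆, h3, h6]; ring
  have e8 : W.b₈ = 0 := by rw [WeierstrassCurve.b₈, h3, h4, h6]; ring
  have hB : W.Ψ₂Sq ^ 2 = pB W.b₂ := by
    rw [WeierstrassCurve.Ψ₂Sq, e4, e6, pB]
    simp
  have hC : W.Ψ₃ = pC W.b₂ := by
    rw [WeierstrassCurve.Ψ₃, e4, e6, e8, pC]
    simp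
  have hD : W.preΨ₄ = pD W.b₂ := by
    rw [WeierstrassCurve.preΨ₄, e4, e6, e8, pD]
    simp
  rw [WeierstrassCurve.preΨ', hB, hC, hD]
  exact preNormEDS'_poly_eq hb m

end Curve

end Fermat.Agent.MAZ.Moduli.NodalPsi2
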