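/-
Program MAZ (S15), chapter MODULI, brick MOD-B/(B4) (helper2).

**The top four coefficients of the Dirichlet-kernel polynomials `Hh β m`** of `NodalPsi2`
(any commutative ring):

  `Hh β m = (2m+1) X^m + q1 m β X^(m-1) + q2 m β² X^(m-2) + q3 m β³ X^(m-3) + …`,

with the integer sequences `q1 m = m(m+1)(2m+1)/6`, `q2 m = (2m+1)(m+2)(m+1)m(m-1)/120`,
`q3 m = (2m+1)(m+3)(m+2)(m+1)m(m-1)(m-2)/5040` (defined by their recursions; the closed forms are
`six_mul_q1`, `mul_q2`, `mul_q3`).  Mathlib only (on top of the definition of `Hh`).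
-/
import Mathlib
import Fermat.Agent.MAZ.Moduli.NodalPsi2

set_option autoImplicit false

open Polynomial

namespace Fermat.Agent.MAZ.Moduli.NodalCoeff2

open Fermat.Agent.MAZ.Moduli.NodalPsi2

/-! ### The integer sequences -/

/-- `q1 m = 1² + 2² + … + m²`. -/
def q1 : ℕ → ℤ
  | 0 => 0
  | 1 => 1
  | (m + 2) => (2 * (m : ℤ) + 3) + 2 * q1 (m + 1) - q1 m

/-- coefficient of `s²` in the Dirichlet kernel `Q_m`. -/
def q2 : ℕ → ℤ
  | 0 => 0
  | 1 => 0
  | (m + 2) => q1 (m + 1) + 2 * q2 (m + 1) - q2 m

/-- coefficient of `s³` in the Dirichlet kernel `Q_m`. -/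
def q3 : ℕ → ℤ
  | 0 => 0
  | 1 => 0
  | (m + 2) => q2 (m + 1) + 2 * q3 (m + 1) - q3 m

theorem q1_succ_succ (m : ℕ) : q1 (m + 2) = (2 * (m : ℤ) + 3) + 2 * q1 (m + 1) - q1 m := by
  rw [q1]
theorem q2_succ_succ (m : ℕ) : q2 (m + 2) = q1 (m + 1) + 2 * q2 (m + 1) - q2 m := by rw [q2]
theorem q3_succ_succ (m : ℕ) : q3 (m + 2) = q2 (m + 1) + 2 * q3 (m + 1) - q3 m := by rw [q3]

theorem six_mul_q1 (m : ℕ) : 6 * q1 m = (m : ℤ) * (m + 1) * (2 * m + 1) := by
  induction m using Nat.strong_induction_on with
  | _ m ih =>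
    match m with
    | 0 => simp [q1]
    | 1 => simp [q1]
    | (m + 2) =>
      have h1 := ih (m + 1) (by omega)
      have h0 := ih m (by omega)
      rw [q1_succ_succ]
      push_cast at h1 h0 ⊢
      linear_combination 2 * h1 - h0

theorem mul_q2 (m : ℕ) :
    120 * q2 m = (2 * (m : ℤ) + 1) * (m + 2) * (m + 1) * m * (m - 1) := by
  induction m using Nat.strong_induction_on with
  | _ m ih =>
    match m with
    | 0 => simp [q2]
    | 1 => simp [q2]
    | (m + 2) =>
      have h1 := ih (m + 1) (by omega)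
      have h0 := ih m (by omega)
      have hq := six_mul_q1 (m + 1)
      rw [q2_succ_succ]
      push_cast at h1 h0 hq ⊢
      linear_combination 2 * h1 - h0 + 20 * hq

theorem mul_q3 (m : ℕ) :
    5040 * q3 m =
      (2 * (m : ℤ) + 1) * (m + 3) * (m + 2) * (m + 1) * m * (m - 1) * (m - 2) := by
  induction m using Nat.strong_induction_on with
  | _ m ih =>
    match m with
    | 0 => simp [q3]
    | 1 => simp [q3]
    | (m + 2) =>
      have h1 := ih (m + 1) (by omega)
      have h0 := ih m (by omega)
      have hq := mul_q2 (m + 1)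
      rw [q3_succ_succ]
      push_cast at h1 h0 hq ⊢
      linear_combination 2 * h1 - h0 + 42 * hq

/-! ### Coefficients of `Hh` -/

section Coeff

variable {R : Type*} [CommRing R] (β : R)

theorem coeff_Hh_rec (m j : ℕ) :
    (Hh β (m + 2)).coeff j = β * (Hh β (m + 1)).coeff j +
      2 * (if 1 ≤ j then (Hh β (m + 1)).coeff (j - 1) else 0) -
        (if 2 ≤ j then (Hh β m).coeff (j - 2) else 0) := by
  rw [Hh_succ_succ, coeff_sub, add_mul, coeff_add, coeff_C_mul, mul_assoc, coeff_ofNat_mul,
    coeff_X_pow_mul', ← pow_one (X : R[X]), coeff_X_pow_mul']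

theorem coeff_Hh_of_lt : ∀ (m j : ℕ), m < j → (Hh β m).coeff j = 0 := by
  intro m
  induction m using Nat.strong_induction_on with
  | _ m ih =>
    intro j hj
    match m with
    | 0 =>
      rw [Hh_zero, coeff_one, if_neg (by omega)]
    | 1 =>
      rw [Hh_one, coeff_add, coeff_C, if_neg (by omega), coeff_ofNat_mul, coeff_X,
        if_neg (by omega)]
      simp
    | (m + 2) =>
      rw [coeff_Hh_rec, ih (m + 1) (by omega) j (by omega), if_pos (by omega),
        ih (m + 1) (by omega) (j - 1) (by omega), if_pos (by omega), ih m (by omega) (j - 2)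
          (by omega)]
      simp

theorem coeff_Hh_lead : ∀ m : ℕ, (Hh β m).coeff m = (2 * m + 1 : ℕ) := by
  intro m
  induction m using Nat.strong_induction_on with
  | _ m ih =>
    match m with
    | 0 => simp
    | 1 =>
      rw [Hh_one, coeff_add, coeff_C, if_neg (by omega), coeff_ofNat_mul, coeff_X_one]
      norm_num
    | (m + 2) =>
      rw [coeff_Hh_rec, coeff_Hh_of_lt β (m + 1) (m + 2) (by omega), if_pos (by omega),
        if_pos (by omega), show m + 2 - 1 = m + 1 by omega, show m + 2 - 2 = m by omega,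
        ih (m + 1) (by omega), ih m (by omega)]
      push_cast
      ring

theorem coeff_Hh_second : ∀ m : ℕ, (Hh β (m + 1)).coeff m = (q1 (m + 1) : R) * β := by
  intro m
  induction m using Nat.strong_induction_on with
  | _ m ih =>
    match m with
    | 0 =>
      rw [Hh_one, coeff_add, coeff_C_zero, coeff_ofNat_mul, coeff_X_zero]
      simp [q1]
    | 1 =>
      rw [coeff_Hh_rec, if_pos (by omega), if_neg (by omega), Hh_one]
      simp only [coeff_add, coeff_C, coeff_ofNat_mul, coeff_X]
      simp [q1]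
      ring
    | (m + 2) =>
      rw [coeff_Hh_rec, if_pos (by omega), if_pos (by omega), show m + 2 - 1 = m + 1 by omega,
        show m + 2 - 2 = m by omega, ih (m + 1) (by omega), ih m (by omega),
        coeff_Hh_lead β (m + 2), q1_succ_succ (m + 1)]
      push_cast
      ring

theorem coeff_Hh_third : ∀ m : ℕ, (Hh β (m + 2)).coeff m = (q2 (m + 2) : R) * β ^ 2 := by
  intro m
  induction m using Nat.strong_induction_on with
  | _ m ih =>
    match m with
    | 0 =>
      rw [coeff_Hh_rec, if_neg (by omega), if_neg (by omega), Hh_one]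
      simp only [coeff_add, coeff_C_zero, coeff_ofNat_mul, coeff_X_zero]
      simp [q2, q1]
      ring
    | 1 =>
      rw [coeff_Hh_rec, if_pos (by omega), if_neg (by omega), coeff_Hh_second β 1,
        show 1 - 1 = 0 by omega, coeff_Hh_rec, if_neg (by omega), if_neg (by omega), Hh_one]
      simp only [coeff_add, coeff_C_zero, coeff_ofNat_mul, coeff_X_zero]
      simp [q2, q1]
      ring
    | (m + 2) =>
      rw [coeff_Hh_rec, if_pos (by omega), if_pos (by omega), show m + 2 - 1 = m + 1 by omega,
        show m + 2 - 2 = m by omega, ih (m + 1) (by omega), ih m (by omega),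
        coeff_Hh_second β (m + 2), q2_succ_succ (m + 2)]
      push_cast
      ring

theorem coeff_Hh_fourth : ∀ m : ℕ, (Hh β (m + 3)).coeff m = (q3 (m + 3) : R) * β ^ 3 := by
  intro m
  induction m using Nat.strong_induction_on with
  | _ m ih =>
    match m with
    | 0 =>
      rw [coeff_Hh_rec, if_neg (by omega), if_neg (by omega), coeff_Hh_third β 0]
      simp [q3, q2, q1]
      ring
    | 1 =>
      rw [coeff_Hh_rec, if_pos (by omega), if_neg (by omega), coeff_Hh_third β 1,
        show 1 - 1 = 0 by omega, coeff_Hh_rec, if_neg (by omega), if_neg (by omega),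
        coeff_Hh_third β 0]
      simp [q3, q2, q1]
      ring
    | (m + 2) =>
      rw [coeff_Hh_rec, if_pos (by omega), if_pos (by omega), show m + 2 - 1 = m + 1 by omega,
        show m + 2 - 2 = m by omega, ih (m + 1) (by omega), ih m (by omega),
        coeff_Hh_third β (m + 2), q3_succ_succ (m + 3)]
      push_cast
      ring

theorem natDegree_Hh_le (m : ℕ) : (Hh β m).natDegree ≤ m :=
  natDegree_le_iff_coeff_eq_zero.mpr fun j hj => coeff_Hh_of_lt β m j hj

end Coeff

end Fermat.Agent.MAZ.Moduli.NodalCoeff2
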