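/-
Program MAZ (S15), chapter MODULI, brick 11 of the X-side table (B4) (helper2).

**Power sums of the roots of the nodal division polynomial** `Hh β m` (`p = 2m+1`), in the
integral form needed for Vélu's `c₄' = c₄ + 120 Σ t(P)`:

  if `Hh β m = p ∏_{s ∈ S} (X - s)` (a multiset `S`, no distinctness), then
  `240 Σ_{s ∈ S} (6 s² + β s) = β² (p⁴ - 1)`.

Valid over every field in which `p ≠ 0` (characteristics `2, 3, 5` included: only the integer
identity `1440 q1² - 2880 p q2 - 240 p q1 = p² (p⁴ - 1)` is used, after multiplying by `p²`).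
-/
import Mathlib
import Fermat.Agent.MAZ.Moduli.NodalCoeff2

set_option autoImplicit false

open Polynomial

namespace Fermat.Agent.MAZ.Moduli.NodalSums2

open Fermat.Agent.MAZ.Moduli.NodalPsi2 Fermat.Agent.MAZ.Moduli.NodalCoeff2

section Vieta

variable {K : Type*} [CommRing K]

/-- `∏_{s ∈ S} (X - s)`. -/
noncomputable def rootProd (S : Multiset K) : K[X] := (S.map (fun s => X - C s)).prod

@[simp] theorem rootProd_zero : rootProd (0 : Multiset K) = 1 := by simp [rootProd]

theorem rootProd_cons (a : K) (S : Multiset K) :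
    rootProd (a ::ₘ S) = (X - C a) * rootProd S := by
  simp [rootProd]

theorem coeff_X_sub_C_mul_succ (a : K) (P : K[X]) (k : ℕ) :
    ((X - C a) * P).coeff (k + 1) = P.coeff k - a * P.coeff (k + 1) := by
  rw [sub_mul, coeff_sub, coeff_X_mul, coeff_C_mul]

theorem coeff_X_sub_C_mul_zero (a : K) (P : K[X]) :
    ((X - C a) * P).coeff 0 = - (a * P.coeff 0) := by
  rw [sub_mul, coeff_sub, coeff_X_mul_zero, coeff_C_mul, zero_sub]

theorem coeff_rootProd_of_lt : ∀ (S : Multiset K) (k : ℕ), Multiset.card S < k →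
    (rootProd S).coeff k = 0 := by
  intro S
  induction S using Multiset.induction_on with
  | empty =>
    intro k hk
    rw [rootProd_zero, coeff_one, if_neg]
    simp at hk
    omega
  | cons a S ih =>
    intro k hk
    rw [Multiset.card_cons] at hk
    obtain ⟨k', rfl⟩ : ∃ k', k = k' + 1 := ⟨k - 1, by omega⟩
    rw [rootProd_cons, coeff_X_sub_C_mul_succ, ih k' (by omega), ih (k' + 1) (by omega)]
    ring

theorem coeff_rootProd_card : ∀ (S : Multiset K), (rootProd S).coeff (Multiset.card S) = 1 := by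
  intro S
  induction S using Multiset.induction_on with
  | empty => simp
  | cons a S ih =>
    rw [Multiset.card_cons, rootProd_cons, coeff_X_sub_C_mul_succ, ih,
      coeff_rootProd_of_lt S _ (by omega)]
    ring

theorem coeff_rootProd_second : ∀ (S : Multiset K) (k : ℕ), Multiset.card S = k + 1 →
    (rootProd S).coeff k = - S.sum := by
  intro S
  induction S using Multiset.induction_on with
  | empty =>
    intro k hk
    simp at hk
  | cons a S ih =>
    intro k hk
    rw [Multiset.card_cons] at hk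
    have hc : Multiset.card S = k := by omega
    rw [rootProd_cons, Multiset.sum_cons]
    rcases Nat.eq_zero_or_pos k with h0 | h0
    · subst h0
      have hS : S = 0 := Multiset.card_eq_zero.mp hc
      subst hS
      rw [coeff_X_sub_C_mul_zero]
      simp
    · obtain ⟨k', rfl⟩ : ∃ k', k = k' + 1 := ⟨k - 1, by omega⟩
      rw [coeff_X_sub_C_mul_succ, ih k' hc, ← hc, coeff_rootProd_card]
      ring

theorem coeff_rootProd_third : ∀ (S : Multiset K) (k : ℕ), Multiset.card S = k + 2 →
    2 * (rootProd S).coeff k = S.sum ^ 2 - (S.map (fun s => s ^ 2)).sum := by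
  intro S
  induction S using Multiset.induction_on with
  | empty =>
    intro k hk
    simp at hk
  | cons a S ih =>
    intro k hk
    rw [Multiset.card_cons] at hk
    have hc : Multiset.card S = k + 1 := by omega
    rw [rootProd_cons, Multiset.sum_cons, Multiset.map_cons, Multiset.sum_cons]
    rcases Nat.eq_zero_or_pos k with h0 | h0
    · subst h0
      obtain ⟨b, rfl⟩ := Multiset.card_eq_one.mp hc
      rw [coeff_X_sub_C_mul_zero, coeff_rootProd_second _ 0 (by simp)]
      simp
      ring
    · obtain ⟨k', rfl⟩ : ∃ k', k = k' + 1 := ⟨k - 1, by omega⟩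
      rw [coeff_X_sub_C_mul_succ, coeff_rootProd_second S (k' + 1) hc, mul_sub, ih k' hc]
      ring

theorem natDegree_rootProd_le (S : Multiset K) : (rootProd S).natDegree ≤ Multiset.card S :=
  natDegree_le_iff_coeff_eq_zero.mpr fun j hj => coeff_rootProd_of_lt S j hj

end Vieta

section Integer

/-- The integer identity behind `c₄(E/C) ≡ p⁴ c₄(E)`. -/
theorem int_identity (m : ℕ) :
    1440 * q1 m ^ 2 - 2880 * (2 * (m : ℤ) + 1) * q2 m - 240 * (2 * (m : ℤ) + 1) * q1 m =
      (2 * (m : ℤ) + 1) ^ 2 * ((2 * (m : ℤ) + 1) ^ 4 - 1) := by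
  have h1 := six_mul_q1 m
  have h2 := mul_q2 m
  linear_combination (40 * (6 * q1 m + (m : ℤ) * (m + 1) * (2 * m + 1))) * h1
    - (24 * (2 * (m : ℤ) + 1)) * h2 - (40 * (2 * (m : ℤ) + 1)) * h1

end Integer

section Sums

variable {K : Type*} [Field K]

/-- A factorisation `Hh β m = p ∏_{s ∈ S} (X - s)` forces `#S = m`. -/
theorem card_of_Hh_eq (β : K) (m : ℕ) (hp : ((2 * m + 1 : ℕ) : K) ≠ 0) (S : Multiset K)
    (hS : Hh β m = C ((2 * m + 1 : ℕ) : K) * rootProd S) : Multiset.card S = m := by
  by_contra hne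
  rcases lt_or_gt_of_ne hne with h | h
  · -- `card S < m`: coefficient `m` of the right-hand side vanishes
    have h1 := congrArg (fun P => P.coeff m) hS
    simp only [coeff_C_mul] at h1
    rw [coeff_Hh_lead, coeff_rootProd_of_lt S m h, mul_zero] at h1
    exact hp h1
  · have h1 := congrArg (fun P => P.coeff (Multiset.card S)) hS
    simp only [coeff_C_mul] at h1
    rw [coeff_Hh_of_lt β m _ h, coeff_rootProd_card, mul_one] at h1
    exact hp h1.symm

/-- **Vélu power sums on the nodal cubic**, multiset form. -/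
theorem velu_sum (β : K) (m : ℕ) (hp : ((2 * m + 1 : ℕ) : K) ≠ 0) (S : Multiset K)
    (hS : Hh β m = C ((2 * m + 1 : ℕ) : K) * (S.map (fun s => X - C s)).prod) :
    240 * (S.map (fun s => 6 * s ^ 2 + β * s)).sum =
      β ^ 2 * (((2 * m + 1 : ℕ) : K) ^ 4 - 1) := by
  change Hh β m = C ((2 * m + 1 : ℕ) : K) * rootProd S at hS
  have hcard := card_of_Hh_eq β m hp S hS
  set p : K := ((2 * m + 1 : ℕ) : K) with hpdef
  have hpm : p = 2 * (m : K) + 1 := by rw [hpdef]; push_cast; ring
  set e1 : K := S.sum with he1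
  set P2 : K := (S.map (fun s => s ^ 2)).sum with hP2
  have hsum : (S.map (fun s => 6 * s ^ 2 + β * s)).sum = 6 * P2 + β * e1 := by
    rw [Multiset.sum_map_add, Multiset.sum_map_mul_left, Multiset.sum_map_mul_left, hP2, he1]
    simp
  have hint : (1440 : K) * (q1 m : K) ^ 2 - 2880 * p * (q2 m : K) - 240 * p * (q1 m : K) =
      p ^ 2 * (p ^ 4 - 1) := by
    have := congrArg (Int.cast (R := K)) (int_identity m)
    push_cast at this
    rw [hpm]
    linear_combination this
  rw [hsum]
  have hp2 : p ^ 2 ≠ 0 := pow_ne_zero 2 hp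
  apply mul_left_cancel₀ hp2
  match m, hcard, hS, hint, hpm with
  | 0, hcard, hS, hint, hpm =>
    have hS0 : S = 0 := Multiset.card_eq_zero.mp hcard
    have h1 : e1 = 0 := by rw [he1, hS0]; simp
    have h2 : P2 = 0 := by rw [hP2, hS0]; simp
    have hp1 : p = 1 := by rw [hpm]; simp
    rw [h1, h2, hp1]; ring
  | 1, hcard, hS, hint, hpm =>
    obtain ⟨s, hs⟩ := Multiset.card_eq_one.mp hcard
    have h1 : e1 = s := by rw [he1, hs]; simp
    have h2 : P2 = s ^ 2 := by rw [hP2, hs]; simp
    have hA := congrArg (fun P => P.coeff 0) hS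
    simp only [coeff_C_mul] at hA
    rw [coeff_Hh_second β 0, coeff_rootProd_second S 0 (by rw [hcard]), ← he1] at hA
    have hq1 : (q1 (0 + 1) : K) = 1 := by simp [q1]
    have hq11 : (q1 1 : K) = 1 := by simp [q1]
    have hq2 : (q2 1 : K) = 0 := by simp [q2]
    rw [hq1] at hA
    rw [hq11, hq2] at hint
    rw [h2, ← h1]
    -- hA : 1 * β = p * -e1
    linear_combination (β ^ 2) * hint + (-(1440 : K) * (β - p * e1) + 240 * β * p) * hA
  | (m + 2), hcard, hS, hint, hpm =>
    have hA := congrArg (fun P => P.coeff (m + 1)) hS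
    simp only [coeff_C_mul] at hA
    rw [coeff_Hh_second β (m + 1), coeff_rootProd_second S (m + 1) (by rw [hcard]), ← he1] at hA
    have hB := congrArg (fun P => P.coeff m) hS
    simp only [coeff_C_mul] at hB
    rw [coeff_Hh_third β m] at hB
    have hB2 := coeff_rootProd_third S m (by rw [hcard])
    rw [← he1, ← hP2] at hB2
    -- hA : q1 * β = p * -e1 ;  hB : q2 * β^2 = p * coeff ; hB2 : 2 * coeff = e1^2 - P2
    linear_combination (β ^ 2) * hint + (-(1440 : K) * ((q1 (m + 1 + 1) : K) * β - p * e1)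
      + 240 * β * p) * hA + (2880 * p : K) * hB + (1440 * p ^ 2 : K) * hB2

/-- `m` distinct roots of `Hh β m` are all its roots. -/
theorem Hh_eq_of_roots (β : K) (m : ℕ) (S : Finset K) (hS : S.card = m)
    (hroot : ∀ s ∈ S, (Hh β m).eval s = 0) :
    Hh β m = C ((2 * m + 1 : ℕ) : K) * (S.val.map (fun s => X - C s)).prod := by
  change Hh β m = C ((2 * m + 1 : ℕ) : K) * rootProd S.val
  have hcard : Multiset.card S.val = m := hS
  apply Polynomial.eq_of_degree_sub_lt_of_eval_finset_eq S
  · rw [hS, degree_lt_iff_coeff_zero]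
    intro k hk
    rw [coeff_sub, coeff_C_mul]
    rcases Nat.eq_or_lt_of_le hk with h | h
    · subst h
      rw [coeff_Hh_lead]
      conv_lhs => rw [← hcard]
      rw [coeff_rootProd_card, hcard]
      ring
    · rw [coeff_Hh_of_lt β m k h, coeff_rootProd_of_lt S.val k (by rw [hcard]; exact h)]
      ring
  · intro s hs
    rw [hroot s hs, eval_mul, eval_C, rootProd, eval_multiset_prod]
    symm
    apply mul_eq_zero_of_right
    apply Multiset.prod_eq_zero
    rw [Multiset.mem_map]
    refine ⟨X - C s, ?_, by simp⟩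
    rw [Multiset.mem_map]
    exact ⟨s, hs, rfl⟩

/-- **Vélu power sums on the nodal cubic**, finset form: `S` = `m` distinct roots of `Hh β m`. -/
theorem velu_sum_finset (β : K) (m : ℕ) (hp : ((2 * m + 1 : ℕ) : K) ≠ 0) (S : Finset K)
    (hS : S.card = m) (hroot : ∀ s ∈ S, (Hh β m).eval s = 0) :
    240 * ∑ s ∈ S, (6 * s ^ 2 + β * s) = β ^ 2 * (((2 * m + 1 : ℕ) : K) ^ 4 - 1) :=
  velu_sum β m hp S.val (Hh_eq_of_roots β m S hS hroot)

end Sums

end Fermat.Agent.MAZ.Moduli.NodalSums2
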