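/-
Program MAZ (S15), chapter MODULI, brick 11 of the X-side table (B2, translated form) (helper2).

* `preΨ'_comp_of_b`: `preΨ'_n` only depends on the `b`-invariants; translating them by `r` is the
  substitution `X ↦ X + r`.
* `preΨ'_nodal_at`: odd division polynomials of a Weierstrass cubic with a singular point `(r, t)`
  over any commutative ring: `preΨ'_(2m+1) = (X - r)^(m(2m+1)) * (Hh (b₂ + 12 r) m)(X - r)`.
-/
import Mathlib
import Fermat.Agent.MAZ.Moduli.NodalPsiRing2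

set_option autoImplicit false

open Polynomial

namespace Fermat.Agent.MAZ.Moduli.NodalTrans2

open Fermat.Agent.MAZ.Moduli.NodalPsi2 Fermat.Agent.MAZ.Moduli.NodalPsiRing2

variable {R : Type*} [CommRing R]

/-- `preΨ'` only depends on the `b`-invariants, and a translation `x ↦ x + r` of the `b`-invariants
is the substitution `X ↦ X + r`. -/
theorem preΨ'_comp_of_b (W W' : WeierstrassCurve R) (r : R)
    (h2 : W'.b₂ = W.b₂ + 12 * r) (h4 : W'.b₄ = W.b₄ + r * W.b₂ + 6 * r ^ 2)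
    (h6 : W'.b₆ = W.b₆ + 2 * r * W.b₄ + r ^ 2 * W.b₂ + 4 * r ^ 3)
    (h8 : W'.b₈ = W.b₈ + 3 * r * W.b₆ + 3 * r ^ 2 * W.b₄ + r ^ 3 * W.b₂ + 3 * r ^ 4) (n : ℕ) :
    W'.preΨ' n = (W.preΨ' n).comp (X + C r) := by
  have hB : W'.Ψ₂Sq = W.Ψ₂Sq.comp (X + C r) := by
    rw [WeierstrassCurve.Ψ₂Sq, WeierstrassCurve.Ψ₂Sq, h2, h4, h6]
    simp only [add_comp, mul_comp, pow_comp, X_comp, C_comp]
    simp only [map_add, map_mul, map_pow, map_ofNat]
    ring
  have hC : W'.Ψ₃ = W.Ψ₃.comp (X + C r) := by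
    rw [WeierstrassCurve.Ψ₃, WeierstrassCurve.Ψ₃, h2, h4, h6, h8]
    simp only [add_comp, mul_comp, pow_comp, X_comp, C_comp, ofNat_comp]
    simp only [map_add, map_mul, map_pow, map_ofNat]
    ring
  have hD : W'.preΨ₄ = W.preΨ₄.comp (X + C r) := by
    have hrel : C (4 * W.b₈) = C (W.b₂ * W.b₆ - W.b₄ ^ 2) := congrArg C W.b_relation
    rw [WeierstrassCurve.preΨ₄, WeierstrassCurve.preΨ₄, h2, h4, h6, h8]
    simp only [add_comp, mul_comp, pow_comp, X_comp, C_comp, ofNat_comp]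
    simp only [map_add, map_mul, map_pow, map_sub, map_ofNat] at hrel ⊢
    linear_combination (-(2 * C r * X + C r ^ 2)) * hrel
  have := map_preNormEDS' (Polynomial.compRingHom (X + C r)) (W.Ψ₂Sq ^ 2) W.Ψ₃ W.preΨ₄ n
  simp only [Polynomial.coe_compRingHom_apply] at this
  rw [WeierstrassCurve.preΨ', WeierstrassCurve.preΨ', hB, hC, hD, this, pow_comp]

/-- **Odd division polynomials of a Weierstrass cubic with a singular point `(r, t)`** (hypotheses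
in the shape of `NodeCount15.node_fy / node_fx / node_f`). -/
theorem preΨ'_nodal_at (W : WeierstrassCurve R) (r t : R)
    (hy : 2 * t + W.a₁ * r + W.a₃ = 0)
    (hx : W.a₁ * t - 3 * r ^ 2 - 2 * W.a₂ * r - W.a₄ = 0)
    (hf : t ^ 2 + W.a₁ * r * t + W.a₃ * t - r ^ 3 - W.a₂ * r ^ 2 - W.a₄ * r - W.a₆ = 0)
    (m : ℕ) :
    W.preΨ' (2 * m + 1) =
      (X - C r) ^ (m * (2 * m + 1)) * (Hh (W.b₂ + 12 * r) m).comp (X - C r) := by
  set W' : WeierstrassCurve R := ⟨W.a₁, W.a₂ + 3 * r, 0, 0, 0⟩ with hW'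
  have e2 : W'.b₂ = W.b₂ + 12 * r := by
    simp only [hW', WeierstrassCurve.b₂]; ring
  have e4 : W'.b₄ = W.b₄ + r * W.b₂ + 6 * r ^ 2 := by
    simp only [hW', WeierstrassCurve.b₂, WeierstrassCurve.b₄]
    linear_combination (2 : R) * hx - W.a₁ * hy
  have e6 : W'.b₆ = W.b₆ + 2 * r * W.b₄ + r ^ 2 * W.b₂ + 4 * r ^ 3 := by
    simp only [hW', WeierstrassCurve.b₂, WeierstrassCurve.b₄, WeierstrassCurve.b₆]
    linear_combination (4 : R) * hf - (2 * t + W.a₁ * r + W.a₃) * hy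
  have e8 : W'.b₈ = W.b₈ + 3 * r * W.b₆ + 3 * r ^ 2 * W.b₄ + r ^ 3 * W.b₂ + 3 * r ^ 4 := by
    simp only [hW', WeierstrassCurve.b₂, WeierstrassCurve.b₄, WeierstrassCurve.b₆,
      WeierstrassCurve.b₈]
    linear_combination (W.a₁ ^ 2 + 4 * W.a₂ + 12 * r) * hf
      + ((W.a₁ * t - 3 * r ^ 2 - 2 * W.a₂ * r - W.a₄) - W.a₁ * (2 * t + W.a₁ * r + W.a₃)) * hx
      - (W.a₂ + 3 * r) * (2 * t + W.a₁ * r + W.a₃) * hy
  have h1 := preΨ'_comp_of_b W W' r e2 e4 e6 e8 (2 * m + 1)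
  have h2 := preΨ'_nodal_ring W' rfl rfl rfl m
  have h3 : W.preΨ' (2 * m + 1) = (W'.preΨ' (2 * m + 1)).comp (X - C r) := by
    rw [h1, comp_assoc]
    simp
  rw [h3, h2, e2, mul_comp, pow_comp, X_comp]

end Fermat.Agent.MAZ.Moduli.NodalTrans2
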