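/-
Program MAZ (S15), chapter Moduli, brick NP (helper41), part (A): **Newton polygon of a polynomial of
modular-equation shape** (Mathlib only).

`Shape m Φ` for `Φ ∈ ℤ[Y][X]` (outer variable `X`, inner variable `Y`, the convention of
`IG/PR/Interface20.P0`):  `Φ = X^(m+1) + u Y^(m+1) - X^m Y^m + ∑_{i,j ≤ m, (i,j) ≠ (m,m)} a_ij X^i Y^j`,
`u = ±1`.  For a field `L` with a valuation `v` and `Φ(x, y) = 0`:

* `dichotomy`, `dichotomy'`, `one_lt_iff`, `not_both` : `1 < v y` ⟹ `v x = (v y)^m ∨ (v x)^m = v y`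
  (and the same with the roles of `x`, `y` exchanged);
* `dX_big`, `dY_big` : a big root is a simple root (any residue characteristic);
  `dX_small`, `dY_small` : a small root is simple if `v m = 1`;
  so the plane point `(x, y)` is nonsingular on `Φ = 0` whenever `1 < v y`;
* `countP_big_polyX`, `countP_big_polyY`, `exists_big_root_X/Y`, `big_root_X/Y_unique` : if `Φ(X, y)`
  splits, exactly one of its `m + 1` roots is big;
* `dichotomy_of_notMem`, `mem_iff_mem` : the same for `A : ValuationSubring K`.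

All of it is derived from one *domination lemma* `wdom` on weighted sums `∑ c_ij a_ij x^i y^j`.
-/
import Mathlib

set_option autoImplicit false

open Polynomial

noncomputable section

namespace Fermat.Agent.MAZ.Moduli.NewtonPhi41

section Val

variable {L : Type*} [Field L] {Γ₀ : Type*} [LinearOrderedCommGroupWithZero Γ₀]
  (v : Valuation L Γ₀)

theorem map_natCast_le_one (n : ℕ) : v (n : L) ≤ 1 := by
  induction n with
  | zero => simp
  | succ n ih =>
    rw [Nat.cast_succ]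
    exact v.map_add_le ih (le_of_eq v.map_one)

theorem map_intCast_le_one (n : ℤ) : v (n : L) ≤ 1 := by
  rcases Int.eq_nat_or_neg n with ⟨k, rfl | rfl⟩
  · simpa using map_natCast_le_one v k
  · simpa using map_natCast_le_one v k

theorem map_intCast_eq_one_of_isUnit {n : ℤ} (h : IsUnit n) : v (n : L) = 1 := by
  rcases Int.isUnit_iff.mp h with rfl | rfl
  · simp
  · simp

/-- The index set of a bivariate polynomial of bidegree `≤ (m+1, m+1)`. -/
def idx (m : ℕ) : Finset (ℕ × ℕ) := Finset.range (m + 2) ×ˢ Finset.range (m + 2)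

theorem mem_idx {m : ℕ} {p : ℕ × ℕ} : p ∈ idx m ↔ p.1 ≤ m + 1 ∧ p.2 ≤ m + 1 := by
  rw [idx, Finset.mem_product, Finset.mem_range, Finset.mem_range]
  omega

/-- **Domination lemma**: in a sum `∑ b_ij x^i y^j` with `v b_ij ≤ 1`, if one index `p₀` has a unit
coefficient and its monomial strictly dominates all other monomials with nonzero coefficient, then the
sum has the valuation of that monomial. -/
theorem dom {m : ℕ} (b : ℕ → ℕ → L) (hb : ∀ i j, v (b i j) ≤ 1) (x y : L) (p₀ : ℕ × ℕ)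
    (hp₀ : p₀ ∈ idx m) (hb0 : v (b p₀.1 p₀.2) = 1) (hne : v x ^ p₀.1 * v y ^ p₀.2 ≠ 0)
    (hdom : ∀ p ∈ idx m, p ≠ p₀ → b p.1 p.2 = 0 ∨
      v x ^ p.1 * v y ^ p.2 < v x ^ p₀.1 * v y ^ p₀.2) :
    v (∑ p ∈ idx m, b p.1 p.2 * x ^ p.1 * y ^ p.2) = v x ^ p₀.1 * v y ^ p₀.2 := by
  classical
  have hval : ∀ p : ℕ × ℕ, v (b p.1 p.2 * x ^ p.1 * y ^ p.2) =
      v (b p.1 p.2) * (v x ^ p.1 * v y ^ p.2) := by
    intro p
    rw [map_mul, map_mul, map_pow, map_pow, mul_assoc]
  have h0 : v (b p₀.1 p₀.2 * x ^ p₀.1 * y ^ p₀.2) = v x ^ p₀.1 * v y ^ p₀.2 := by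
    rw [hval, hb0, one_mul]
  rw [v.map_sum_eq_of_lt hp₀, h0]
  intro p hp
  rw [Finset.mem_sdiff, Finset.mem_singleton] at hp
  rw [h0, hval]
  rcases hdom p hp.1 hp.2 with h | h
  · rw [h, map_zero, zero_mul]
    exact zero_lt_iff.mpr hne
  · calc v (b p.1 p.2) * (v x ^ p.1 * v y ^ p.2) ≤ 1 * (v x ^ p.1 * v y ^ p.2) :=
          mul_le_mul_left (hb _ _) _
      _ = v x ^ p.1 * v y ^ p.2 := one_mul _
      _ < _ := h

end Val

/-! ### Arrays of modular-equation shape -/

/-- An integer array `a i j` (coefficient of `X^i Y^j`) has *modular-equation shape of level `m`* if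
the only monomials of degree `m + 1` in `X` (resp. `Y`) are `X^(m+1)` (resp. `Y^(m+1)`), with unit
coefficients, and `X^m Y^m` has a unit coefficient.  (Indices beyond `m + 1` are never looked at.) -/
structure ArrShape (m : ℕ) (a : ℕ → ℕ → ℤ) : Prop where
  top_x : IsUnit (a (m + 1) 0)
  top_y : IsUnit (a 0 (m + 1))
  mid : IsUnit (a m m)
  x_zero : ∀ j, 1 ≤ j → a (m + 1) j = 0
  y_zero : ∀ i, 1 ≤ i → a i (m + 1) = 0

theorem ArrShape.swap {m : ℕ} {a : ℕ → ℕ → ℤ} (h : ArrShape m a) :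
    ArrShape m (fun i j => a j i) :=
  ⟨h.top_y, h.top_x, h.mid, h.y_zero, h.x_zero⟩

section Arr

variable {L : Type*} [Field L] {Γ₀ : Type*} [LinearOrderedCommGroupWithZero Γ₀]
  (v : Valuation L Γ₀)

/-- The weighted evaluation `∑ c_ij a_ij x^i y^j` over `i, j ≤ m + 1`. -/
def wEval (m : ℕ) (c a : ℕ → ℕ → ℤ) (x y : L) : L :=
  ∑ p ∈ idx m, ((c p.1 p.2 * a p.1 p.2 : ℤ) : L) * x ^ p.1 * y ^ p.2

/-- The evaluation `∑ a_ij x^i y^j` over `i, j ≤ m + 1`. -/
def arrEval (m : ℕ) (a : ℕ → ℕ → ℤ) (x y : L) : L :=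
  ∑ p ∈ idx m, (a p.1 p.2 : L) * x ^ p.1 * y ^ p.2

theorem wEval_one (m : ℕ) (a : ℕ → ℕ → ℤ) (x y : L) :
    wEval m (fun _ _ => 1) a x y = arrEval m a x y := by
  simp only [wEval, arrEval, one_mul]

theorem wEval_swap (m : ℕ) (c a : ℕ → ℕ → ℤ) (x y : L) :
    wEval m (fun i j => c j i) (fun i j => a j i) y x = wEval m c a x y := by
  unfold wEval idx
  rw [Finset.sum_product, Finset.sum_product, Finset.sum_comm]
  refine Finset.sum_congr rfl fun i _ => Finset.sum_congr rfl fun j _ => ?_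
  ring

theorem arrEval_swap (m : ℕ) (a : ℕ → ℕ → ℤ) (x y : L) :
    arrEval m (fun i j => a j i) y x = arrEval m a x y := by
  rw [← wEval_one, ← wEval_one]
  exact wEval_swap m (fun _ _ => 1) a x y

/-- **Weighted domination**: the workhorse. -/
theorem wdom {m : ℕ} {a : ℕ → ℕ → ℤ} (h : ArrShape m a) (c : ℕ → ℕ → ℤ) (x y : L)
    (p₀ : ℕ × ℕ) (hp₀ : p₀ ∈ idx m) (hu : IsUnit (a p₀.1 p₀.2))
    (hc : v ((c p₀.1 p₀.2 : ℤ) : L) = 1) (hne : v x ^ p₀.1 * v y ^ p₀.2 ≠ 0)
    (h1 : p₀ ≠ (m + 1, 0) → c (m + 1) 0 = 0 ∨ v x ^ (m + 1) < v x ^ p₀.1 * v y ^ p₀.2)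
    (h2 : p₀ ≠ (0, m + 1) → c 0 (m + 1) = 0 ∨ v y ^ (m + 1) < v x ^ p₀.1 * v y ^ p₀.2)
    (h3 : ∀ i j, i ≤ m → j ≤ m → (i, j) ≠ p₀ →
      c i j = 0 ∨ v x ^ i * v y ^ j < v x ^ p₀.1 * v y ^ p₀.2) :
    v (wEval m c a x y) = v x ^ p₀.1 * v y ^ p₀.2 := by
  rw [wEval]
  refine dom v (fun i j => ((c i j * a i j : ℤ) : L)) (fun i j => map_intCast_le_one v _) x y p₀
    hp₀ ?_ hne ?_
  · show v ((c p₀.1 p₀.2 * a p₀.1 p₀.2 : ℤ) : L) = 1
    rw [Int.cast_mul, map_mul, hc, one_mul]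
    exact map_intCast_eq_one_of_isUnit v hu
  · rintro ⟨i, j⟩ hp hne'
    rw [mem_idx] at hp
    simp only at hp ⊢
    have hz : ∀ {t : ℤ}, t = 0 → ((t : ℤ) : L) = 0 := fun ht => by rw [ht, Int.cast_zero]
    rcases Nat.lt_or_ge m i with hi | hi
    · -- i = m + 1
      have hi' : i = m + 1 := le_antisymm hp.1 hi
      subst hi'
      rcases Nat.eq_zero_or_pos j with hj | hj
      · subst hj
        rcases h1 (Ne.symm hne') with h' | h'
        · left; rw [h', zero_mul, Int.cast_zero]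
        · right; simpa using h'
      · left
        rw [h.x_zero j hj, mul_zero, Int.cast_zero]
    · rcases Nat.lt_or_ge m j with hj | hj
      · have hj' : j = m + 1 := le_antisymm hp.2 hj
        subst hj'
        rcases Nat.eq_zero_or_pos i with hi0 | hi0
        · subst hi0
          rcases h2 (Ne.symm hne') with h' | h'
          · left; rw [h', zero_mul, Int.cast_zero]
          · right; simpa using h'
        · left
          rw [h.y_zero i hi0, mul_zero, Int.cast_zero]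
      · rcases h3 i j hi hj hne' with h' | h'
        · left; rw [h', zero_mul, Int.cast_zero]
        · right; exact h'

section Mono

variable {Γ₀ : Type*} [LinearOrderedCommGroupWithZero Γ₀]

theorem mono_lt {A B : Γ₀} (hA : 1 < A) (hB : 1 < B) {i j m : ℕ} (hi : i ≤ m) (hj : j ≤ m)
    (h : i < m ∨ j < m) : B ^ i * A ^ j < B ^ m * A ^ m := by
  have hA0 : 0 < A := lt_trans zero_lt_one hA
  have hB0 : 0 < B := lt_trans zero_lt_one hB
  rcases h with h | h
  · exact mul_lt_mul (pow_lt_pow_right₀ hB h) (pow_le_pow_right₀ hA.le hj) (pow_pos hA0 _)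
      (pow_pos hB0 _).le
  · exact mul_lt_mul' (pow_le_pow_right₀ hB.le hi) (pow_lt_pow_right₀ hA h) (pow_pos hA0 _).le
      (pow_pos hB0 _)

theorem mono_le {A B : Γ₀} (hA : 1 ≤ A) (hB : 1 ≤ B) {i j m n : ℕ} (hi : i ≤ m) (hj : j ≤ n) :
    B ^ i * A ^ j ≤ B ^ m * A ^ n :=
  mul_le_mul' (pow_le_pow_right₀ hB hi) (pow_le_pow_right₀ hA hj)

end Mono

/-- **Array-level Newton dichotomy.** -/
theorem arr_dichotomy {m : ℕ} (hm : 1 ≤ m) {a : ℕ → ℕ → ℤ} (h : ArrShape m a) {x y : L}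
    (h0 : arrEval m a x y = 0) (hy : 1 < v y) :
    1 < v x ∧ (v x = v y ^ m ∨ v x ^ m = v y) := by
  set A := v y with hAdef
  set B := v x with hBdef
  have hA0 : 0 < A := lt_trans zero_lt_one hy
  have hAm : A ≤ A ^ m := by
    calc A = A ^ 1 := (pow_one A).symm
      _ ≤ A ^ m := pow_le_pow_right₀ hy.le hm
  -- a contradiction from any strict domination
  have key : ∀ p₀ : ℕ × ℕ, p₀ ∈ idx m → IsUnit (a p₀.1 p₀.2) → B ^ p₀.1 * A ^ p₀.2 ≠ 0 →
      (p₀ ≠ (m + 1, 0) → B ^ (m + 1) < B ^ p₀.1 * A ^ p₀.2) →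
      (p₀ ≠ (0, m + 1) → A ^ (m + 1) < B ^ p₀.1 * A ^ p₀.2) →
      (∀ i j, i ≤ m → j ≤ m → (i, j) ≠ p₀ → B ^ i * A ^ j < B ^ p₀.1 * A ^ p₀.2) → False := by
    intro p₀ hp₀ hu hne h1 h2 h3
    have := wdom v h (fun _ _ => 1) x y p₀ hp₀ hu (by simp) hne (fun hh => Or.inr (h1 hh))
      (fun hh => Or.inr (h2 hh)) (fun i j hi hj hh => Or.inr (h3 i j hi hj hh))
    rw [wEval_one, h0, map_zero] at this
    exact hne this.symm
  have hB1 : 1 < B := by
    by_contra hB
    rw [not_lt] at hB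
    refine key (0, m + 1) (mem_idx.mpr ⟨by simp, by simp⟩) h.top_y ?_ ?_ ?_ ?_
    · show B ^ 0 * A ^ (m + 1) ≠ 0
      rw [pow_zero, one_mul]
      exact (pow_pos hA0 _).ne'
    · intro _
      calc B ^ (m + 1) ≤ 1 := pow_le_one₀ zero_le hB
        _ < A ^ (m + 1) := one_lt_pow₀ hy (Nat.succ_ne_zero m)
        _ = B ^ 0 * A ^ (m + 1) := by rw [pow_zero, one_mul]
    · intro hh; exact absurd rfl hh
    · intro i j _ hj _
      calc B ^ i * A ^ j ≤ 1 * A ^ j := mul_le_mul_left (pow_le_one₀ zero_le hB) _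
        _ = A ^ j := one_mul _
        _ ≤ A ^ m := pow_le_pow_right₀ hy.le hj
        _ < A ^ (m + 1) := pow_lt_pow_right₀ hy (Nat.lt_succ_self m)
        _ = B ^ 0 * A ^ (m + 1) := by rw [pow_zero, one_mul]
  have hB0 : 0 < B := lt_trans zero_lt_one hB1
  refine ⟨hB1, ?_⟩
  rcases lt_trichotomy B (A ^ m) with hlt | heq | hgt
  · -- `B < A^m`
    rcases lt_trichotomy A (B ^ m) with hlt' | heq' | hgt'
    · -- `A < B^m`: the middle term dominates
      exfalso
      refine key (m, m) (mem_idx.mpr ⟨by simp, by simp⟩) h.mid ?_ ?_ ?_ ?_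
      · exact (mul_pos (pow_pos hB0 _) (pow_pos hA0 _)).ne'
      · intro _
        calc B ^ (m + 1) = B ^ m * B := pow_succ B m
          _ < B ^ m * A ^ m := mul_lt_mul_of_pos_left hlt (pow_pos hB0 _)
      · intro _
        calc A ^ (m + 1) = A * A ^ m := pow_succ' A m
          _ < B ^ m * A ^ m := mul_lt_mul_of_pos_right hlt' (pow_pos hA0 _)
      · intro i j hi hj hne
        refine mono_lt hy hB1 hi hj ?_
        by_contra hcon
        rw [not_or, not_lt, not_lt] at hcon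
        exact hne (Prod.ext (le_antisymm hi hcon.1) (le_antisymm hj hcon.2))
    · exact Or.inr heq'.symm
    · -- `B^m < A`: the `Y^(m+1)` term dominates
      exfalso
      refine key (0, m + 1) (mem_idx.mpr ⟨by simp, by simp⟩) h.top_y ?_ ?_ ?_ ?_
      · show B ^ 0 * A ^ (m + 1) ≠ 0
        rw [pow_zero, one_mul]
        exact (pow_pos hA0 _).ne'
      · intro _
        calc B ^ (m + 1) = B ^ m * B := pow_succ B m
          _ < A * A ^ m := mul_lt_mul'' hgt' hlt zero_le zero_le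
          _ = A ^ (m + 1) := (pow_succ' A m).symm
          _ = B ^ 0 * A ^ (m + 1) := by rw [pow_zero, one_mul]
      · intro hh; exact absurd rfl hh
      · intro i j hi hj _
        calc B ^ i * A ^ j ≤ B ^ m * A ^ m := mono_le hy.le hB1.le hi hj
          _ < A * A ^ m := mul_lt_mul_of_pos_right hgt' (pow_pos hA0 _)
          _ = A ^ (m + 1) := (pow_succ' A m).symm
          _ = B ^ 0 * A ^ (m + 1) := by rw [pow_zero, one_mul]
  · exact Or.inl heq
  · -- `A^m < B`: the `X^(m+1)` term dominates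
    exfalso
    have hAB : A < B := lt_of_le_of_lt hAm hgt
    refine key (m + 1, 0) (mem_idx.mpr ⟨by simp, by simp⟩) h.top_x ?_ ?_ ?_ ?_
    · show B ^ (m + 1) * A ^ 0 ≠ 0
      rw [pow_zero, mul_one]
      exact (pow_pos hB0 _).ne'
    · intro hh; exact absurd rfl hh
    · intro _
      calc A ^ (m + 1) < B ^ (m + 1) := pow_lt_pow_left₀ hAB zero_le (Nat.succ_ne_zero m)
        _ = B ^ (m + 1) * A ^ 0 := by rw [pow_zero, mul_one]
    · intro i j hi hj _
      calc B ^ i * A ^ j ≤ B ^ m * A ^ m := mono_le hy.le hB1.le hi hj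
        _ < B ^ m * B := mul_lt_mul_of_pos_left hgt (pow_pos hB0 _)
        _ = B ^ (m + 1) := (pow_succ B m).symm
        _ = B ^ (m + 1) * A ^ 0 := by rw [pow_zero, mul_one]

theorem wEval_sub_const (m : ℕ) (c a : ℕ → ℕ → ℤ) (t : ℤ) (x y : L) :
    wEval m (fun i j => c i j - t) a x y = wEval m c a x y - (t : L) * arrEval m a x y := by
  rw [wEval, wEval, arrEval, Finset.mul_sum, ← Finset.sum_sub_distrib]
  refine Finset.sum_congr rfl fun p _ => ?_
  push_cast
  ring

/-- **`X ∂_X` at a big root**: if `v x = (v y)^m` then `∑ i a_ij x^i y^j` (`= x · ∂_X F (x, y)`) has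
valuation `(v x)^(m+1)`; in particular `∂_X F (x, y) ≠ 0`.  No condition on the residue
characteristic. -/
theorem arr_dX_big {m : ℕ} (hm : 2 ≤ m) {a : ℕ → ℕ → ℤ} (h : ArrShape m a) {x y : L}
    (h0 : arrEval m a x y = 0) (hy : 1 < v y) (hbig : v x = v y ^ m) :
    v (wEval m (fun i _ => (i : ℤ)) a x y) = v x ^ (m + 1) := by
  have hA0 : 0 < v y := lt_trans zero_lt_one hy
  have hB1 : 1 < v x := by rw [hbig]; exact one_lt_pow₀ hy (by omega)
  have hB0 : 0 < v x := lt_trans zero_lt_one hB1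
  have hAB : v y < v x := by
    rw [hbig]
    calc v y = v y ^ 1 := (pow_one _).symm
      _ < v y ^ m := pow_lt_pow_right₀ hy (by omega)
  have h1 : wEval m (fun i _ => (i : ℤ)) a x y = wEval m (fun i _ => (i : ℤ) - (m : ℤ)) a x y := by
    rw [wEval_sub_const, h0, mul_zero, sub_zero]
  rw [h1]
  have := wdom v h (fun i _ => (i : ℤ) - (m : ℤ)) x y (m + 1, 0)
    (mem_idx.mpr ⟨by simp, by simp⟩) h.top_x (by simp)
    (by
      show v x ^ (m + 1) * v y ^ 0 ≠ 0
      rw [pow_zero, mul_one]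
      exact (pow_pos hB0 _).ne')
    (fun hh => absurd rfl hh)
    (fun _ => Or.inr (by
      show v y ^ (m + 1) < v x ^ (m + 1) * v y ^ 0
      rw [pow_zero, mul_one]
      exact pow_lt_pow_left₀ hAB zero_le (Nat.succ_ne_zero m)))
    (fun i j hi hj _ => by
      rcases Nat.lt_or_ge i m with hi' | hi'
      · right
        show v x ^ i * v y ^ j < v x ^ (m + 1) * v y ^ 0
        rw [pow_zero, mul_one]
        calc v x ^ i * v y ^ j ≤ v x ^ (m - 1) * v y ^ m :=
              mono_le hy.le hB1.le (by omega) hj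
          _ = v x ^ (m - 1) * v x := by rw [hbig]
          _ = v x ^ m := by rw [← pow_succ]; congr 1; omega
          _ < v x ^ (m + 1) := pow_lt_pow_right₀ hB1 (Nat.lt_succ_self m)
      · left
        have : i = m := le_antisymm hi hi'
        simp [this])
  rw [this]
  show v x ^ (m + 1) * v y ^ 0 = v x ^ (m + 1)
  rw [pow_zero, mul_one]

/-- **`X ∂_X` at a small root**: if `(v x)^m = v y` and `m` is a unit for `v`, then
`∑ i a_ij x^i y^j` has valuation `(v x)^m (v y)^m`. -/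
theorem arr_dX_small {m : ℕ} (hm : 2 ≤ m) {a : ℕ → ℕ → ℤ} (h : ArrShape m a) {x y : L}
    (hvm : v ((m : ℤ) : L) = 1) (hx : 1 < v x) (hsmall : v x ^ m = v y) :
    v (wEval m (fun i _ => (i : ℤ)) a x y) = v x ^ m * v y ^ m := by
  have hB0 : 0 < v x := lt_trans zero_lt_one hx
  have hy : 1 < v y := by rw [← hsmall]; exact one_lt_pow₀ hx (by omega)
  have hA0 : 0 < v y := lt_trans zero_lt_one hy
  have hBA : v x < v y ^ m := by
    calc v x = v x ^ 1 := (pow_one _).symm
      _ < v x ^ m := pow_lt_pow_right₀ hx (by omega)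
      _ = v y := hsmall
      _ = v y ^ 1 := (pow_one _).symm
      _ ≤ v y ^ m := pow_le_pow_right₀ hy.le (by omega)
  exact wdom v h (fun i _ => (i : ℤ)) x y (m, m)
    (mem_idx.mpr ⟨by simp, by simp⟩) h.mid hvm
    (mul_pos (pow_pos hB0 _) (pow_pos hA0 _)).ne'
    (fun _ => Or.inr (by
      show v x ^ (m + 1) < v x ^ m * v y ^ m
      rw [pow_succ]
      exact mul_lt_mul_of_pos_left hBA (pow_pos hB0 _)))
    (fun _ => Or.inl (by simp))
    (fun i j hi hj hne => Or.inr (by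
      refine mono_lt hy hx hi hj ?_
      by_contra hcon
      rw [not_or, not_lt, not_lt] at hcon
      exact hne (Prod.ext (le_antisymm hi hcon.1) (le_antisymm hj hcon.2))))

end Arr

/-! ### Bivariate integer polynomials of modular-equation shape -/

/-- `Φ ∈ ℤ[Y][X]` (outer variable `X`, inner variable `Y`, as in `IG/PR/Interface20.P0`) has
*modular-equation shape of level `m`*:
`Φ = X^(m+1) + u Y^(m+1) - X^m Y^m + ∑_{i, j ≤ m, (i,j) ≠ (m,m)} a_ij X^i Y^j`, `u = ±1`. -/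
structure Shape (m : ℕ) (Φ : ℤ[X][X]) : Prop where
  monic : Φ.Monic
  natDegree : Φ.natDegree = m + 1
  deg_le : ∀ k, 1 ≤ k → (Φ.coeff k).natDegree ≤ m
  coeff_mm : (Φ.coeff m).coeff m = -1
  deg_zero : (Φ.coeff 0).natDegree = m + 1
  lead_zero : IsUnit (Φ.coeff 0).leadingCoeff

/-- The coefficient array of `Φ`: `coeffArr Φ i j` is the coefficient of `X^i Y^j`. -/
def coeffArr (Φ : ℤ[X][X]) : ℕ → ℕ → ℤ := fun i j => (Φ.coeff i).coeff j

theorem Shape.coeff_succ {m : ℕ} {Φ : ℤ[X][X]} (h : Shape m Φ) : Φ.coeff (m + 1) = 1 := by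
  have := h.monic.coeff_natDegree
  rwa [h.natDegree] at this

theorem Shape.natDegree_coeff_lt {m : ℕ} {Φ : ℤ[X][X]} (h : Shape m Φ) (i : ℕ) :
    (Φ.coeff i).natDegree < m + 2 := by
  rcases Nat.eq_zero_or_pos i with hi | hi
  · rw [hi, h.deg_zero]; omega
  · have := h.deg_le i hi; omega

theorem Shape.arrShape {m : ℕ} {Φ : ℤ[X][X]} (h : Shape m Φ) : ArrShape m (coeffArr Φ) where
  top_x := by
    show IsUnit ((Φ.coeff (m + 1)).coeff 0)
    rw [h.coeff_succ, coeff_one_zero]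
    exact isUnit_one
  top_y := by
    show IsUnit ((Φ.coeff 0).coeff (m + 1))
    have := h.lead_zero
    rwa [Polynomial.leadingCoeff, h.deg_zero] at this
  mid := by
    show IsUnit ((Φ.coeff m).coeff m)
    rw [h.coeff_mm]
    exact isUnit_one.neg
  x_zero := by
    intro j hj
    show (Φ.coeff (m + 1)).coeff j = 0
    rw [h.coeff_succ, coeff_one, if_neg (by omega)]
  y_zero := by
    intro i hi
    show (Φ.coeff i).coeff (m + 1) = 0
    exact coeff_eq_zero_of_natDegree_lt (lt_of_le_of_lt (h.deg_le i hi) (Nat.lt_succ_self m))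

section Poly

variable {L : Type*} [Field L]

/-- `Φ(X := x, Y := y)`. -/
def ev (Φ : ℤ[X][X]) (x y : L) : L :=
  Φ.eval₂ (Polynomial.eval₂RingHom (Int.castRingHom L) y) x

/-- `Φ(X, y) ∈ L[X]`. -/
def polyX (Φ : ℤ[X][X]) (y : L) : L[X] :=
  Φ.map (Polynomial.eval₂RingHom (Int.castRingHom L) y)

/-- `Φ(x, Y) ∈ L[Y]`. -/
def polyY (Φ : ℤ[X][X]) (x : L) : L[X] :=
  Φ.eval₂ (Polynomial.mapRingHom (Int.castRingHom L)) (C x)

theorem eval_polyX (Φ : ℤ[X][X]) (x y : L) : (polyX Φ y).eval x = ev Φ x y :=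
  eval_map _ _

theorem eval_polyY (Φ : ℤ[X][X]) (x y : L) : (polyY Φ x).eval y = ev Φ x y := by
  rw [polyY, ← coe_evalRingHom, Polynomial.hom_eval₂, coe_evalRingHom, eval_C, ev]
  congr 1
  apply Polynomial.ringHom_ext
  · intro a
    simp
  · simp

theorem coeff_inner_sum {m : ℕ} {Φ : ℤ[X][X]} (h : Shape m Φ) (i : ℕ) (y : L) :
    (Φ.coeff i).eval₂ (Int.castRingHom L) y =
      ∑ j ∈ Finset.range (m + 2), (coeffArr Φ i j : L) * y ^ j := by
  rw [eval₂_eq_sum_range' _ (h.natDegree_coeff_lt i)]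
  rfl

theorem ev_eq_arrEval {m : ℕ} {Φ : ℤ[X][X]} (h : Shape m Φ) (x y : L) :
    ev Φ x y = arrEval m (coeffArr Φ) x y := by
  rw [ev, eval₂_eq_sum_range' _ (show Φ.natDegree < m + 2 by rw [h.natDegree]; omega)]
  unfold arrEval idx
  rw [Finset.sum_product]
  refine Finset.sum_congr rfl fun i _ => ?_
  rw [coe_eval₂RingHom, coeff_inner_sum h, Finset.sum_mul]
  refine Finset.sum_congr rfl fun j _ => ?_
  ring

variable {Γ₀ : Type*} [LinearOrderedCommGroupWithZero Γ₀] (v : Valuation L Γ₀)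

/-- **Newton dichotomy** for a root `x` of `Φ(X, y)`, `|y| > 1`: `|x| = |y|^m` or `|x|^m = |y|`. -/
theorem dichotomy {m : ℕ} (hm : 1 ≤ m) {Φ : ℤ[X][X]} (h : Shape m Φ) {x y : L}
    (h0 : ev Φ x y = 0) (hy : 1 < v y) : v x = v y ^ m ∨ v x ^ m = v y :=
  (arr_dichotomy v hm h.arrShape (by rw [← ev_eq_arrEval h, h0]) hy).2

theorem one_lt_of_one_lt {m : ℕ} (hm : 1 ≤ m) {Φ : ℤ[X][X]} (h : Shape m Φ) {x y : L}
    (h0 : ev Φ x y = 0) (hy : 1 < v y) : 1 < v x :=
  (arr_dichotomy v hm h.arrShape (by rw [← ev_eq_arrEval h, h0]) hy).1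

/-- **Newton dichotomy**, the other variable: for a root `y` of `Φ(x, Y)`, `|x| > 1`. -/
theorem dichotomy' {m : ℕ} (hm : 1 ≤ m) {Φ : ℤ[X][X]} (h : Shape m Φ) {x y : L}
    (h0 : ev Φ x y = 0) (hx : 1 < v x) : v y = v x ^ m ∨ v y ^ m = v x :=
  (arr_dichotomy v hm h.arrShape.swap
    (by rw [arrEval_swap, ← ev_eq_arrEval h, h0]) hx).2

theorem one_lt_of_one_lt' {m : ℕ} (hm : 1 ≤ m) {Φ : ℤ[X][X]} (h : Shape m Φ) {x y : L}
    (h0 : ev Φ x y = 0) (hx : 1 < v x) : 1 < v y :=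
  (arr_dichotomy v hm h.arrShape.swap
    (by rw [arrEval_swap, ← ev_eq_arrEval h, h0]) hx).1

theorem one_lt_iff {m : ℕ} (hm : 1 ≤ m) {Φ : ℤ[X][X]} (h : Shape m Φ) {x y : L}
    (h0 : ev Φ x y = 0) : 1 < v x ↔ 1 < v y :=
  ⟨one_lt_of_one_lt' v hm h h0, one_lt_of_one_lt v hm h h0⟩

/-- For `|y| > 1` and `m ≥ 2` the two alternatives of the dichotomy exclude each other. -/
theorem not_both {m : ℕ} (hm : 2 ≤ m) {x y : L} (hy : 1 < v y) (h1 : v x = v y ^ m)
    (h2 : v x ^ m = v y) : False := by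
  rw [h1, ← pow_mul] at h2
  have h3 : v y ^ (m * m) = v y ^ 1 := by rw [h2, pow_one]
  have := pow_right_injective₀ (lt_trans zero_lt_one hy) hy.ne' h3
  nlinarith

/-! ### The specialised polynomials and their derivatives -/

theorem polyX_monic {m : ℕ} {Φ : ℤ[X][X]} (h : Shape m Φ) (y : L) : (polyX Φ y).Monic :=
  h.monic.map _

theorem polyX_natDegree {m : ℕ} {Φ : ℤ[X][X]} (h : Shape m Φ) (y : L) :
    (polyX Φ y).natDegree = m + 1 := by
  rw [polyX, h.monic.natDegree_map, h.natDegree]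

theorem polyX_coeff {m : ℕ} {Φ : ℤ[X][X]} (h : Shape m Φ) (i : ℕ) (y : L) :
    (polyX Φ y).coeff i = ∑ j ∈ Finset.range (m + 2), (coeffArr Φ i j : L) * y ^ j := by
  rw [polyX, coeff_map, coe_eval₂RingHom, coeff_inner_sum h]

theorem polyY_coeff {m : ℕ} {Φ : ℤ[X][X]} (h : Shape m Φ) (j : ℕ) (x : L) :
    (polyY Φ x).coeff j = ∑ i ∈ Finset.range (m + 2), (coeffArr Φ i j : L) * x ^ i := by
  rw [polyY, eval₂_eq_sum_range' _ (show Φ.natDegree < m + 2 by rw [h.natDegree]; omega),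
    finsetSum_coeff]
  refine Finset.sum_congr rfl fun i _ => ?_
  rw [← C_pow, coeff_mul_C, coe_mapRingHom, coeff_map]
  rfl

theorem polyY_natDegree_lt {m : ℕ} {Φ : ℤ[X][X]} (h : Shape m Φ) (x : L) :
    (polyY Φ x).natDegree < m + 2 := by
  rw [Nat.lt_succ_iff, natDegree_le_iff_coeff_eq_zero]
  intro N hN
  rw [polyY_coeff h]
  refine Finset.sum_eq_zero fun i _ => ?_
  have : coeffArr Φ i N = 0 :=
    coeff_eq_zero_of_natDegree_lt (lt_of_lt_of_le (h.natDegree_coeff_lt i) (by omega))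
  rw [this, Int.cast_zero, zero_mul]

/-- `x · P'(x) = ∑ i · coeff_i · x^i`. -/
theorem mul_eval_derivative (P : L[X]) (n : ℕ) (hn : P.natDegree < n) (x : L) :
    x * P.derivative.eval x = ∑ i ∈ Finset.range n, (i : L) * P.coeff i * x ^ i := by
  rw [derivative_eval, sum_over_range' P (by intro k; simp) n hn, Finset.mul_sum]
  refine Finset.sum_congr rfl fun i _ => ?_
  rcases Nat.eq_zero_or_pos i with hi | hi
  · subst hi; simp
  · obtain ⟨k, rfl⟩ : ∃ k, i = k + 1 := ⟨i - 1, by omega⟩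
    rw [Nat.add_sub_cancel, pow_succ]
    ring

theorem mul_eval_derivative_polyX {m : ℕ} {Φ : ℤ[X][X]} (h : Shape m Φ) (x y : L) :
    x * (polyX Φ y).derivative.eval x = wEval m (fun i _ => (i : ℤ)) (coeffArr Φ) x y := by
  rw [mul_eval_derivative _ (m + 2) (by rw [polyX_natDegree h]; omega)]
  unfold wEval idx
  rw [Finset.sum_product]
  refine Finset.sum_congr rfl fun i _ => ?_
  rw [polyX_coeff h, Finset.mul_sum, Finset.sum_mul]
  refine Finset.sum_congr rfl fun j _ => ?_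
  push_cast
  ring

theorem mul_eval_derivative_polyY {m : ℕ} {Φ : ℤ[X][X]} (h : Shape m Φ) (x y : L) :
    y * (polyY Φ x).derivative.eval y =
      wEval m (fun i _ => (i : ℤ)) (fun i j => coeffArr Φ j i) y x := by
  rw [mul_eval_derivative _ (m + 2) (polyY_natDegree_lt h x)]
  unfold wEval idx
  rw [Finset.sum_product]
  refine Finset.sum_congr rfl fun j _ => ?_
  rw [polyY_coeff h, Finset.mul_sum, Finset.sum_mul]
  refine Finset.sum_congr rfl fun i _ => ?_
  push_cast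
  ring

/-- **A big root in `X` is simple**: `|x| = |y|^m`, `|y| > 1` ⟹ `|∂_X Φ (x, y)| = |x|^m ≠ 0`. -/
theorem dX_big {m : ℕ} (hm : 2 ≤ m) {Φ : ℤ[X][X]} (h : Shape m Φ) {x y : L}
    (h0 : ev Φ x y = 0) (hy : 1 < v y) (hbig : v x = v y ^ m) :
    v ((polyX Φ y).derivative.eval x) = v x ^ m := by
  have h1 := arr_dX_big v hm h.arrShape (by rw [← ev_eq_arrEval h, h0]) hy hbig
  rw [← mul_eval_derivative_polyX h, map_mul, pow_succ'] at h1
  have hx0 : v x ≠ 0 := by
    rw [hbig]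
    exact (pow_pos (lt_trans zero_lt_one hy) _).ne'
  exact mul_left_cancel₀ hx0 h1

/-- **A small root in `X` is simple when `m` is a `v`-unit**: `|x|^m = |y|`, `|x| > 1`, `|m| = 1` ⟹
`|∂_X Φ (x, y)| = |x|^(m-1) |y|^m`. -/
theorem dX_small {m : ℕ} (hm : 2 ≤ m) {Φ : ℤ[X][X]} (h : Shape m Φ) {x y : L}
    (hvm : v (m : L) = 1) (hx : 1 < v x) (hsmall : v x ^ m = v y) :
    v ((polyX Φ y).derivative.eval x) = v x ^ (m - 1) * v y ^ m := by
  have h1 := arr_dX_small v hm h.arrShape (x := x) (y := y) (by simpa using hvm) hx hsmall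
  rw [← mul_eval_derivative_polyX h, map_mul] at h1
  have hx0 : v x ≠ 0 := (lt_trans zero_lt_one hx).ne'
  apply mul_left_cancel₀ hx0
  rw [h1, ← mul_assoc, ← pow_succ']
  congr 2
  omega

/-- **A big root in `Y` is simple**: `|y| = |x|^m`, `|x| > 1` ⟹ `|∂_Y Φ (x, y)| = |y|^m ≠ 0`. -/
theorem dY_big {m : ℕ} (hm : 2 ≤ m) {Φ : ℤ[X][X]} (h : Shape m Φ) {x y : L}
    (h0 : ev Φ x y = 0) (hx : 1 < v x) (hbig : v y = v x ^ m) :
    v ((polyY Φ x).derivative.eval y) = v y ^ m := by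
  have h1 := arr_dX_big v hm h.arrShape.swap
    (by rw [arrEval_swap, ← ev_eq_arrEval h, h0]) hx hbig
  rw [← mul_eval_derivative_polyY h, map_mul, pow_succ'] at h1
  have hy0 : v y ≠ 0 := by
    rw [hbig]
    exact (pow_pos (lt_trans zero_lt_one hx) _).ne'
  exact mul_left_cancel₀ hy0 h1

/-- **A small root in `Y` is simple when `m` is a `v`-unit.** -/
theorem dY_small {m : ℕ} (hm : 2 ≤ m) {Φ : ℤ[X][X]} (h : Shape m Φ) {x y : L}
    (hvm : v (m : L) = 1) (hy : 1 < v y) (hsmall : v y ^ m = v x) :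
    v ((polyY Φ x).derivative.eval y) = v y ^ (m - 1) * v x ^ m := by
  have h1 := arr_dX_small v hm h.arrShape.swap (x := y) (y := x) (by simpa using hvm) hy hsmall
  rw [← mul_eval_derivative_polyY h, map_mul] at h1
  have hy0 : v y ≠ 0 := (lt_trans zero_lt_one hy).ne'
  apply mul_left_cancel₀ hy0
  rw [h1, ← mul_assoc, ← pow_succ']
  congr 2
  omega

end Poly

/-! ### Counting the big roots -/

section Count

variable {L : Type*} [Field L] {Γ₀ : Type*} [LinearOrderedCommGroupWithZero Γ₀]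
  (v : Valuation L Γ₀)

theorem prod_pow_of_dichotomy (A : Γ₀) (m : ℕ) (R : Multiset L)
    [DecidablePred fun r : L => v r = A ^ m]
    (hR : ∀ r ∈ R, v r = A ^ m ∨ v r ^ m = A) :
    (v R.prod) ^ m = A ^ (m * m * R.countP (fun r => v r = A ^ m) +
      R.countP (fun r => ¬ v r = A ^ m)) := by
  induction R using Multiset.induction_on with
  | empty => simp
  | cons r R ih =>
    have ih' := ih fun r' hr' => hR r' (Multiset.mem_cons_of_mem hr')
    rw [Multiset.prod_cons, map_mul, mul_pow, ih']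
    by_cases hr : v r = A ^ m
    · rw [Multiset.countP_cons_of_pos (p := fun r => v r = A ^ m) R hr,
        Multiset.countP_cons_of_neg (p := fun r => ¬ v r = A ^ m) R (not_not.mpr hr), hr,
        ← pow_mul, ← pow_add]
      congr 1
      ring
    · have hsm : v r ^ m = A := (hR r (Multiset.mem_cons_self r R)).resolve_left hr
      rw [Multiset.countP_cons_of_neg (p := fun r => v r = A ^ m) R hr,
        Multiset.countP_cons_of_pos (p := fun r => ¬ v r = A ^ m) R hr, hsm]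
      rw [← pow_succ']
      congr 1

/-- **Counting lemma**: a split polynomial of degree `m + 1` (`m ≥ 2`) with unit leading coefficient,
constant coefficient of valuation `A^(m+1)` (`A > 1`) and all of whose roots have valuation `A^m` or
`A^(1/m)`, has exactly one root of valuation `A^m`. -/
theorem countP_big_of_dichotomy {m : ℕ} (hm : 2 ≤ m) {A : Γ₀} (hA : 1 < A) (P : L[X])
    (hdeg : P.natDegree = m + 1) (hlc : v P.leadingCoeff = 1) (h0 : v (P.coeff 0) = A ^ (m + 1))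
    (hs : P.Splits) (hR : ∀ r ∈ P.roots, v r = A ^ m ∨ v r ^ m = A)
    [DecidablePred fun r : L => v r = A ^ m] :
    P.roots.countP (fun r => v r = A ^ m) = 1 := by
  have hcard : Multiset.card P.roots = m + 1 := by rw [← hs.natDegree_eq_card_roots, hdeg]
  have hprod : v P.roots.prod = A ^ (m + 1) := by
    have h1 := hs.coeff_zero_eq_leadingCoeff_mul_prod_roots
    rw [h1, map_mul, map_mul, hlc, mul_one, map_pow, Valuation.map_neg, map_one, one_pow,
      one_mul] at h0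
    exact h0
  have h2 := prod_pow_of_dichotomy v A m P.roots hR
  rw [hprod, ← pow_mul] at h2
  have h3 := pow_right_injective₀ (lt_trans zero_lt_one hA) hA.ne' h2
  have h4 := Multiset.card_eq_countP_add_countP (fun r => v r = A ^ m) P.roots
  rw [hcard] at h4
  set t := P.roots.countP (fun r => v r = A ^ m) with ht
  set s' := P.roots.countP (fun r => ¬ v r = A ^ m) with hs'
  have hmm : 4 ≤ m * m := by nlinarith
  have h5 : m * m * t + 1 = m * m + t := by nlinarith
  rcases Nat.lt_or_ge t 1 with h6 | h6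
  · have : t = 0 := by omega
    rw [this] at h5
    nlinarith
  · rcases Nat.lt_or_ge 1 t with h7 | h7
    · nlinarith
    · omega

omit [Field L] in
theorem eq_of_countP_eq_one {R : Multiset L} {p : L → Prop} [DecidablePred p]
    (hc : R.countP p = 1) {a b : L} (ha : a ∈ R) (hb : b ∈ R) (pa : p a) (pb : p b) : a = b := by
  classical
  by_contra hne
  have h1 : a ∈ (R.filter p).toFinset := Multiset.mem_toFinset.mpr (Multiset.mem_filter.mpr ⟨ha, pa⟩)
  have h2 : b ∈ (R.filter p).toFinset := Multiset.mem_toFinset.mpr (Multiset.mem_filter.mpr ⟨hb, pb⟩)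
  have h3 : 1 < (R.filter p).toFinset.card := Finset.one_lt_card.mpr ⟨a, h1, b, h2, hne⟩
  have h4 := Multiset.toFinset_card_le (R.filter p)
  rw [← Multiset.countP_eq_card_filter, hc] at h4
  omega

/-- One-variable domination: `∑_{j ≤ m+1} c_j y^j` with `c_(m+1) = ±1`, `|y| > 1`. -/
theorem col_val {m : ℕ} {c : ℕ → ℤ} (hu : IsUnit (c (m + 1))) {y : L} (hy : 1 < v y) :
    v (∑ j ∈ Finset.range (m + 2), (c j : L) * y ^ j) = v y ^ (m + 1) := by
  classical
  have hA0 : 0 < v y := lt_trans zero_lt_one hy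
  have htop : v ((c (m + 1) : L) * y ^ (m + 1)) = v y ^ (m + 1) := by
    rw [map_mul, map_intCast_eq_one_of_isUnit v hu, one_mul, map_pow]
  rw [v.map_sum_eq_of_lt (j := m + 1) (Finset.mem_range.mpr (by omega)), htop]
  intro i hi
  rw [Finset.mem_sdiff, Finset.mem_range, Finset.mem_singleton] at hi
  rw [htop, map_mul, map_pow]
  calc v (c i : L) * v y ^ i ≤ 1 * v y ^ i := mul_le_mul_left (map_intCast_le_one v _) _
    _ = v y ^ i := one_mul _
    _ < v y ^ (m + 1) := pow_lt_pow_right₀ hy (by omega)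

variable {m : ℕ} {Φ : ℤ[X][X]}

theorem polyX_coeff_zero_val (h : Shape m Φ) {y : L} (hy : 1 < v y) :
    v ((polyX Φ y).coeff 0) = v y ^ (m + 1) := by
  rw [polyX_coeff h]
  exact col_val v (c := fun j => coeffArr Φ 0 j) h.arrShape.top_y hy

theorem polyY_coeff_zero_val (h : Shape m Φ) {x : L} (hx : 1 < v x) :
    v ((polyY Φ x).coeff 0) = v x ^ (m + 1) := by
  rw [polyY_coeff h]
  exact col_val v (c := fun i => coeffArr Φ i 0) h.arrShape.top_x hx

theorem polyY_coeff_succ (h : Shape m Φ) (x : L) :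
    (polyY Φ x).coeff (m + 1) = (coeffArr Φ 0 (m + 1) : L) := by
  rw [polyY_coeff h, Finset.sum_eq_single 0]
  · rw [pow_zero, mul_one]
  · intro i _ hi
    rw [h.arrShape.y_zero i (Nat.pos_of_ne_zero hi), Int.cast_zero, zero_mul]
  · intro h0
    exact absurd (Finset.mem_range.mpr (by omega)) h0

theorem polyY_natDegree (h : Shape m Φ) (x : L) : (polyY Φ x).natDegree = m + 1 := by
  refine le_antisymm (Nat.lt_succ_iff.mp (polyY_natDegree_lt h x)) ?_
  apply le_natDegree_of_ne_zero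
  rw [polyY_coeff_succ h]
  rcases Int.isUnit_iff.mp h.arrShape.top_y with hu | hu <;> rw [hu] <;> simp

theorem polyY_leadingCoeff_val (h : Shape m Φ) (x : L) : v (polyY Φ x).leadingCoeff = 1 := by
  rw [Polynomial.leadingCoeff, polyY_natDegree h, polyY_coeff_succ h]
  exact map_intCast_eq_one_of_isUnit v h.arrShape.top_y

/-- **Exactly one big root in `X`**: among the `m + 1` roots of `Φ(X, y)`, `|y| > 1`, exactly one has
`|x| = |y|^m` (the other `m` have `|x|^m = |y|`). -/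
theorem countP_big_polyX (hm : 2 ≤ m) (h : Shape m Φ) {y : L} (hy : 1 < v y)
    (hs : (polyX Φ y).Splits) [DecidablePred fun r : L => v r = v y ^ m] :
    (polyX Φ y).roots.countP (fun r => v r = v y ^ m) = 1 := by
  refine countP_big_of_dichotomy v hm hy _ (polyX_natDegree h y) ?_ (polyX_coeff_zero_val v h hy) hs ?_
  · rw [(polyX_monic h y).leadingCoeff, map_one]
  · intro r hr
    have hr' := (mem_roots'.mp hr).2
    rw [IsRoot.def, eval_polyX] at hr'
    exact dichotomy v (by omega) h hr' hy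

/-- **Exactly one big root in `Y`.** -/
theorem countP_big_polyY (hm : 2 ≤ m) (h : Shape m Φ) {x : L} (hx : 1 < v x)
    (hs : (polyY Φ x).Splits) [DecidablePred fun r : L => v r = v x ^ m] :
    (polyY Φ x).roots.countP (fun r => v r = v x ^ m) = 1 := by
  refine countP_big_of_dichotomy v hm hx _ (polyY_natDegree h x) (polyY_leadingCoeff_val v h x)
    (polyY_coeff_zero_val v h hx) hs ?_
  intro r hr
  have hr' := (mem_roots'.mp hr).2
  rw [IsRoot.def, eval_polyY] at hr'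
  exact dichotomy' v (by omega) h hr' hx

theorem polyX_ne_zero (h : Shape m Φ) (y : L) : polyX Φ y ≠ 0 := (polyX_monic h y).ne_zero

theorem polyY_ne_zero (h : Shape m Φ) (x : L) : polyY Φ x ≠ 0 := by
  intro h0
  have := polyY_natDegree h x
  rw [h0, natDegree_zero] at this
  omega

theorem exists_big_root_X (hm : 2 ≤ m) (h : Shape m Φ) {y : L} (hy : 1 < v y)
    (hs : (polyX Φ y).Splits) : ∃ x : L, ev Φ x y = 0 ∧ v x = v y ^ m := by
  classical
  have hc := countP_big_polyX v hm h hy hs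
  have hpos : 0 < (polyX Φ y).roots.countP (fun r => v r = v y ^ m) := by rw [hc]; exact one_pos
  obtain ⟨x, hx, hvx⟩ := Multiset.countP_pos.mp hpos
  refine ⟨x, ?_, hvx⟩
  rw [← eval_polyX]
  exact (mem_roots'.mp hx).2

theorem big_root_X_unique (hm : 2 ≤ m) (h : Shape m Φ) {y : L} (hy : 1 < v y)
    (hs : (polyX Φ y).Splits) {x₁ x₂ : L} (h1 : ev Φ x₁ y = 0) (h2 : ev Φ x₂ y = 0)
    (hb1 : v x₁ = v y ^ m) (hb2 : v x₂ = v y ^ m) : x₁ = x₂ := by
  classical
  refine eq_of_countP_eq_one (countP_big_polyX v hm h hy hs) ?_ ?_ hb1 hb2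
  · exact mem_roots'.mpr ⟨polyX_ne_zero h y, by rw [IsRoot.def, eval_polyX, h1]⟩
  · exact mem_roots'.mpr ⟨polyX_ne_zero h y, by rw [IsRoot.def, eval_polyX, h2]⟩

theorem exists_big_root_Y (hm : 2 ≤ m) (h : Shape m Φ) {x : L} (hx : 1 < v x)
    (hs : (polyY Φ x).Splits) : ∃ y : L, ev Φ x y = 0 ∧ v y = v x ^ m := by
  classical
  have hc := countP_big_polyY v hm h hx hs
  have hpos : 0 < (polyY Φ x).roots.countP (fun r => v r = v x ^ m) := by rw [hc]; exact one_pos
  obtain ⟨y, hy, hvy⟩ := Multiset.countP_pos.mp hpos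
  refine ⟨y, ?_, hvy⟩
  rw [← eval_polyY]
  exact (mem_roots'.mp hy).2

theorem big_root_Y_unique (hm : 2 ≤ m) (h : Shape m Φ) {x : L} (hx : 1 < v x)
    (hs : (polyY Φ x).Splits) {y₁ y₂ : L} (h1 : ev Φ x y₁ = 0) (h2 : ev Φ x y₂ = 0)
    (hb1 : v y₁ = v x ^ m) (hb2 : v y₂ = v x ^ m) : y₁ = y₂ := by
  classical
  refine eq_of_countP_eq_one (countP_big_polyY v hm h hx hs) ?_ ?_ hb1 hb2
  · exact mem_roots'.mpr ⟨polyY_ne_zero h x, by rw [IsRoot.def, eval_polyY, h1]⟩
  · exact mem_roots'.mpr ⟨polyY_ne_zero h x, by rw [IsRoot.def, eval_polyY, h2]⟩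

end Count

/-! ### The `ValuationSubring` form -/

section VS

variable {K : Type*} [Field K] (A : ValuationSubring K) {m : ℕ} {Φ : ℤ[X][X]}

theorem one_lt_valuation_iff (y : K) : 1 < A.valuation y ↔ y ∉ A := by
  rw [← not_le, A.valuation_le_one_iff]

/-- Newton dichotomy for `A : ValuationSubring K`: `y ∉ A`, `Φ(x, y) = 0` ⟹ `x ∉ A` and
`|x| = |y|^m` or `|x|^m = |y|`. -/
theorem dichotomy_of_notMem (hm : 1 ≤ m) (h : Shape m Φ) {x y : K} (h0 : ev Φ x y = 0)
    (hy : y ∉ A) :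
    x ∉ A ∧ (A.valuation x = A.valuation y ^ m ∨ A.valuation x ^ m = A.valuation y) := by
  rw [← one_lt_valuation_iff] at hy ⊢
  exact ⟨one_lt_of_one_lt A.valuation hm h h0 hy, dichotomy A.valuation hm h h0 hy⟩

theorem dichotomy_of_notMem' (hm : 1 ≤ m) (h : Shape m Φ) {x y : K} (h0 : ev Φ x y = 0)
    (hx : x ∉ A) :
    y ∉ A ∧ (A.valuation y = A.valuation x ^ m ∨ A.valuation y ^ m = A.valuation x) := by
  rw [← one_lt_valuation_iff] at hx ⊢
  exact ⟨one_lt_of_one_lt' A.valuation hm h h0 hx, dichotomy' A.valuation hm h h0 hx⟩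

theorem mem_iff_mem (hm : 1 ≤ m) (h : Shape m Φ) {x y : K} (h0 : ev Φ x y = 0) :
    x ∈ A ↔ y ∈ A := by
  have := one_lt_iff A.valuation hm h h0
  rw [one_lt_valuation_iff, one_lt_valuation_iff] at this
  exact not_iff_not.mp this

end VS

end Fermat.Agent.MAZ.Moduli.NewtonPhi41
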