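/-
Program MAZ (S15), chapter Moduli, brick NP (helper41), part (B): **the modular polynomial `Φ_p` has
modular-equation shape**.

For EVERY witness `Φ ∈ ℤ[Y][X]` of `IG/PR/Interface20.P0 p` (monic of `X`-degree `p + 1` with
`Φ(j(q^p), j(q)) = 0 = Φ(j(q), j(q^p))` in `ℤ((q))`):

* `factor` : the Kronecker factorisation `Φ(X, j(q^p)) = (X - j(q^(p²))) ∏_{b<p} (X - j(ζ^b q))` over any
  field with a primitive `p`-th root of unity `ζ` (from `SectionKit3.eq_annPoly_of_monic`);
* `shape_of_P0` : `NewtonPhi41.Shape p Φ`, i.e.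
  `Φ = X^(p+1) + u Y^(p+1) - X^p Y^p + ∑_{i,j ≤ p, (i,j) ≠ (p,p)} a_ij X^i Y^j`, `u = ±1`
  (from the `q`-orders of the elementary symmetric functions of the roots; `Fil` = the `q`-adic
  filtration with leading coefficients);
* `P0_unique` : two witnesses coincide;
* `modPoly p` : a canonical `Φ_p` for everybody, with `modPoly_monic`, `modPoly_natDegree`,
  `modPoly_eval(')`, `modPoly_eval_ring(')` (the identities in `R((q))` for any commutative ring `R`),
  `modPoly_shape`, `modPoly_unique`.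

So all of `NewtonPhi41` (Newton dichotomy, simple roots, root count) applies to `modPoly p`.
-/
import Mathlib
import Fermat.Agent.IG.AN.ModPoly3
import Fermat.Agent.ES.KRON.KronCong24
import Fermat.Agent.MAZ.Moduli.NewtonPhi41

set_option autoImplicit false
set_option linter.unusedSectionVars false

open HahnSeries Polynomial ModularCurve

noncomputable section

namespace Fermat.Agent.MAZ.Moduli.ModPolyShape41

open Fermat.Agent.IG.PR.Interface20 Fermat.Agent.IG.AN.SectionKit3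
open Fermat.Agent.ES.KRON.KronCong24 Fermat.Agent.MAZ.Moduli.NewtonPhi41

/-! ### The `q`-adic filtration on Laurent series, with leading coefficients -/

section Fil

variable {R : Type*} [CommRing R]

/-- `Fil n f`: all coefficients of `f` below `n` vanish. -/
def Fil (n : ℤ) (f : LaurentSeries R) : Prop := ∀ k : ℤ, k < n → f.coeff k = 0

theorem fil_zero (n : ℤ) : Fil n (0 : LaurentSeries R) := fun _ _ => rfl

theorem Fil.mono {n m : ℤ} {f : LaurentSeries R} (h : Fil n f) (hmn : m ≤ n) : Fil m f :=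
  fun k hk => h k (lt_of_lt_of_le hk hmn)

theorem Fil.add {n : ℤ} {f g : LaurentSeries R} (hf : Fil n f) (hg : Fil n g) : Fil n (f + g) :=
  fun k hk => by rw [HahnSeries.coeff_add, hf k hk, hg k hk, add_zero]

theorem Fil.neg {n : ℤ} {f : LaurentSeries R} (hf : Fil n f) : Fil n (-f) :=
  fun k hk => by rw [HahnSeries.coeff_neg, hf k hk, neg_zero]

theorem Fil.sub {n : ℤ} {f g : LaurentSeries R} (hf : Fil n f) (hg : Fil n g) : Fil n (f - g) :=
  fun k hk => by rw [HahnSeries.coeff_sub, hf k hk, hg k hk, sub_zero]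

theorem fil_sum {ι : Type*} (s : Finset ι) (f : ι → LaurentSeries R) (n : ℤ)
    (h : ∀ i ∈ s, Fil n (f i)) : Fil n (∑ i ∈ s, f i) := by
  intro k hk
  rw [HahnSeries.coeff_sum]
  exact Finset.sum_eq_zero fun i hi => h i hi k hk

theorem Fil.mul {n m : ℤ} {f g : LaurentSeries R} (hf : Fil n f) (hg : Fil m g) :
    Fil (n + m) (f * g) := by
  intro k hk
  rw [HahnSeries.coeff_mul]
  refine Finset.sum_eq_zero fun ij hij => ?_
  have hsum : ij.1 + ij.2 = k := (Finset.mem_antidiagonal.mp hij).2.2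
  rcases lt_or_ge ij.1 n with h1 | h1
  · rw [hf _ h1, zero_mul]
  · rw [hg ij.2 (by omega), mul_zero]

theorem Fil.coeff_mul {n m : ℤ} {f g : LaurentSeries R} (hf : Fil n f) (hg : Fil m g) :
    (f * g).coeff (n + m) = f.coeff n * g.coeff m := by
  rw [HahnSeries.coeff_mul, Finset.sum_eq_single (n, m)]
  · intro ij hij hne
    have hsum : ij.1 + ij.2 = n + m := (Finset.mem_antidiagonal.mp hij).2.2
    rcases lt_or_ge ij.1 n with h1 | h1
    · rw [hf _ h1, zero_mul]
    · rcases lt_or_ge ij.2 m with h2 | h2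
      · rw [hg _ h2, mul_zero]
      · exact absurd (Prod.ext (by simp only; omega) (by simp only; omega)) hne
  · intro hnm
    rw [Finset.mem_antidiagonal] at hnm
    by_contra hne
    apply hnm
    refine ⟨?_, ?_, rfl⟩
    · rw [HahnSeries.mem_support]
      intro h0
      exact hne (by rw [h0, zero_mul])
    · rw [HahnSeries.mem_support]
      intro h0
      exact hne (by rw [h0, mul_zero])

theorem fil_one : Fil 0 (1 : LaurentSeries R) := by
  intro k hk
  rw [HahnSeries.coeff_one, if_neg (by omega)]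

theorem Fil.pow {n : ℤ} {f : LaurentSeries R} (hf : Fil n f) (k : ℕ) :
    Fil (k * n) (f ^ k) ∧ (f ^ k).coeff (k * n) = f.coeff n ^ k := by
  induction k with
  | zero =>
    refine ⟨by simpa using fil_one, ?_⟩
    simp [HahnSeries.coeff_one]
  | succ k ih =>
    have h1 : ((k + 1 : ℕ) : ℤ) * n = k * n + n := by push_cast; ring
    rw [h1, pow_succ, pow_succ]
    exact ⟨ih.1.mul hf, by rw [ih.1.coeff_mul hf, ih.2]⟩

theorem fil_prod {ι : Type*} (s : Finset ι) (f : ι → LaurentSeries R) (n : ι → ℤ)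
    (h : ∀ i ∈ s, Fil (n i) (f i)) :
    Fil (∑ i ∈ s, n i) (∏ i ∈ s, f i) ∧
      (∏ i ∈ s, f i).coeff (∑ i ∈ s, n i) = ∏ i ∈ s, (f i).coeff (n i) := by
  classical
  induction s using Finset.induction_on with
  | empty =>
    refine ⟨by simpa using fil_one, ?_⟩
    simp [HahnSeries.coeff_one]
  | insert a s ha ih =>
    have ih' := ih fun i hi => h i (Finset.mem_insert_of_mem hi)
    have ha' := h a (Finset.mem_insert_self a s)
    rw [Finset.sum_insert ha, Finset.prod_insert ha, Finset.prod_insert ha]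
    exact ⟨ha'.mul ih'.1, by rw [ha'.coeff_mul ih'.1, ih'.2]⟩

theorem fil_intCast (a : ℤ) : Fil 0 ((a : ℤ) : LaurentSeries R) ∧
    ((a : ℤ) : LaurentSeries R).coeff 0 = (a : R) := by
  have h : ((a : ℤ) : LaurentSeries R) = HahnSeries.C (a : R) := (map_intCast HahnSeries.C a).symm
  rw [h]
  refine ⟨fun k hk => ?_, ?_⟩
  · rw [HahnSeries.C_apply, HahnSeries.coeff_single_of_ne (by omega)]
  · rw [HahnSeries.C_apply, HahnSeries.coeff_single_same]

/-- `c(f)` for `c ∈ ℤ[X]` of degree `≤ d` and `f = q^(-n) + …`, `n ≥ 1`: it lies in `Fil (-n d)` and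
its coefficient at `-n d` is the `d`-th coefficient of `c`. -/
theorem fil_evalAt {n : ℕ} (hn : 1 ≤ n) {f : LaurentSeries R} (hf : Fil (-(n : ℤ)) f)
    (hf1 : f.coeff (-(n : ℤ)) = 1) (c : ℤ[X]) (d : ℕ) (hd : c.natDegree ≤ d) :
    Fil (-((n : ℤ) * d)) (evalAt R f c) ∧
      (evalAt R f c).coeff (-((n : ℤ) * d)) = ((c.coeff d : ℤ) : R) := by
  have hexp : evalAt R f c =
      ∑ i ∈ Finset.range (d + 1), ((c.coeff i : ℤ) : LaurentSeries R) * f ^ i := by
    rw [evalAt, Polynomial.coe_eval₂RingHom,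
      Polynomial.eval₂_eq_sum_range' _ (Nat.lt_succ_of_le hd)]
    rfl
  have hterm : ∀ i : ℕ, Fil (-((n : ℤ) * i)) (((c.coeff i : ℤ) : LaurentSeries R) * f ^ i) ∧
      (((c.coeff i : ℤ) : LaurentSeries R) * f ^ i).coeff (-((n : ℤ) * i)) = ((c.coeff i : ℤ) : R) := by
    intro i
    have hp := hf.pow i
    have h0 := fil_intCast (R := R) (c.coeff i)
    have he : (0 : ℤ) + (i : ℤ) * (-(n : ℤ)) = -((n : ℤ) * i) := by ring
    refine ⟨?_, ?_⟩
    · have := h0.1.mul hp.1
      rwa [he] at this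
    · have := h0.1.coeff_mul hp.1
      rw [he] at this
      rw [this, h0.2, hp.2, hf1, one_pow, mul_one]
  rw [hexp]
  refine ⟨fil_sum _ _ _ fun i hi => ?_, ?_⟩
  · refine (hterm i).1.mono ?_
    have : i ≤ d := Nat.lt_succ_iff.mp (Finset.mem_range.mp hi)
    have h1 : (i : ℤ) ≤ d := by exact_mod_cast this
    nlinarith
  · rw [HahnSeries.coeff_sum, Finset.sum_eq_single d]
    · exact (hterm d).2
    · intro i hi hne
      have : i < d := lt_of_le_of_ne (Nat.lt_succ_iff.mp (Finset.mem_range.mp hi)) hne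
      have h1 : (i : ℤ) + 1 ≤ d := by exact_mod_cast this
      exact (hterm i).1 _ (by nlinarith)
    · intro h
      exact absurd (Finset.mem_range.mpr (Nat.lt_succ_self d)) h

end Fil

/-! ### Descent along `q ↦ q^p` of twist-invariant series -/

section Descent

variable {R : Type*} [CommRing R] (p : ℕ) [NeZero p]

/-- A series supported on multiples of `p` is a series in `q^p`. -/
theorem exists_qExpand_eq (a : LaurentSeries R)
    (h : ∀ n : ℤ, ¬ (p : ℤ) ∣ n → a.coeff n = 0) : ∃ z : LaurentSeries R, qExpand R p z = a := by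
  have hm : (0 : ℤ) < p := by exact_mod_cast Nat.pos_of_ne_zero (NeZero.ne p)
  have hbdd : BddBelow (Function.support fun n : ℤ => a.coeff ((p : ℤ) * n)) := by
    refine ⟨min 0 a.order, fun n hn => ?_⟩
    by_contra hlt
    rw [not_le] at hlt
    apply hn
    show a.coeff ((p : ℤ) * n) = 0
    apply coeff_eq_zero_of_lt_order
    have h0 : n < 0 := lt_of_lt_of_le hlt (min_le_left _ _)
    have h1 : n < a.order := lt_of_lt_of_le hlt (min_le_right _ _)
    have hm1 : (1 : ℤ) ≤ p := hm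
    nlinarith
  refine ⟨ofSuppBddBelow (fun n : ℤ => a.coeff ((p : ℤ) * n)) hbdd, ?_⟩
  ext n
  by_cases hn : (p : ℤ) ∣ n
  · obtain ⟨c, rfl⟩ := hn
    rw [qExpand_coeff_mul, coeff_ofSuppBddBelow]
  · rw [qExpand_coeff_of_not_dvd p _ hn, h n hn]

variable {K : Type*} [Field K]

/-- A series fixed by the twist by a primitive `p`-th root of unity is a series in `q^p`. -/
theorem exists_qExpand_eq_of_twistU (ζ : Kˣ) (hζ : IsPrimitiveRoot ζ p) (a : LaurentSeries K)
    (h : twistU ζ a = a) : ∃ z : LaurentSeries K, qExpand K p z = a := by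
  refine exists_qExpand_eq p a fun n hn => ?_
  have h1 := congrArg (fun f => f.coeff n) h
  simp only [twistU_coeff] at h1
  have h2 : (((ζ ^ n : Kˣ) : K) - 1) * a.coeff n = 0 := by rw [sub_mul, h1, one_mul, sub_self]
  rcases mul_eq_zero.mp h2 with h3 | h3
  · exfalso
    have h4 : (ζ ^ n : Kˣ) = 1 := Units.ext (by rw [Units.val_one]; exact sub_eq_zero.mp h3)
    exact hn ((hζ.zpow_eq_one_iff_dvd n).mp h4)
  · exact h3

/-- The product `∏_{b < p} (X - y(ζ^b q))`. -/
def twistProd (ζ : Kˣ) (y : LaurentSeries K) : (LaurentSeries K)[X] :=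
  ∏ b ∈ Finset.range p, (X - Polynomial.C (twistU (ζ ^ b) y))

theorem twistProd_monic (ζ : Kˣ) (y : LaurentSeries K) : (twistProd p ζ y).Monic :=
  monic_prod_of_monic _ _ fun _ _ => monic_X_sub_C _

theorem twistProd_natDegree (ζ : Kˣ) (y : LaurentSeries K) : (twistProd p ζ y).natDegree = p := by
  rw [twistProd, natDegree_prod_of_monic _ _ fun b _ => monic_X_sub_C _]
  simp

theorem twistProd_eval (ζ : Kˣ) (y : LaurentSeries K) : (twistProd p ζ y).eval y = 0 := by
  rw [twistProd, eval_prod]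
  refine Finset.prod_eq_zero (Finset.mem_range.mpr (Nat.pos_of_ne_zero (NeZero.ne p))) ?_
  rw [pow_zero, twistU_one, eval_sub, eval_X, eval_C, sub_self]

theorem twistProd_map_twistU (ζ : Kˣ) (hζ : ζ ^ p = 1) (y : LaurentSeries K) :
    (twistProd p ζ y).map (twistU ζ) = twistProd p ζ y := by
  rw [twistProd, Polynomial.map_prod]
  have h1 : ∀ b : ℕ, (X - Polynomial.C (twistU (ζ ^ b) y)).map (twistU ζ) =
      X - Polynomial.C (twistU (ζ ^ (b + 1)) y) := by
    intro b
    rw [Polynomial.map_sub, Polynomial.map_X, Polynomial.map_C, ← twistU_mul, ← pow_succ']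
  rw [Finset.prod_congr rfl fun b _ => h1 b]
  have h2 := Finset.prod_range_succ' (fun b => X - Polynomial.C (twistU (ζ ^ b) y)) p
  have h3 := Finset.prod_range_succ (fun b => X - Polynomial.C (twistU (ζ ^ b) y)) p
  rw [h2] at h3
  rw [hζ, pow_zero] at h3
  exact mul_right_cancel₀ (monic_X_sub_C _).ne_zero h3

/-- **`V (annPoly p y) = ∏_b (X - y(ζ^b q))`** for `y` of order `-1`. -/
theorem map_annPoly_eq_twistProd (ζ : Kˣ) (hζ : IsPrimitiveRoot ζ p) {y : LaurentSeries K}
    (hy : y.order = -1) : (annPoly p y).map (qExpand K p) = twistProd p ζ y := by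
  have hl : twistProd p ζ y ∈ Polynomial.lifts (qExpand K p) := by
    rw [Polynomial.lifts_iff_coeff_lifts]
    intro n
    have h1 : twistU ζ ((twistProd p ζ y).coeff n) = (twistProd p ζ y).coeff n := by
      rw [← Polynomial.coeff_map, twistProd_map_twistU p ζ hζ.pow_eq_one]
    obtain ⟨z, hz⟩ := exists_qExpand_eq_of_twistU p ζ hζ _ h1
    exact ⟨z, hz⟩
  obtain ⟨Q₀, hmap, hdeg, hmonic⟩ :=
    Polynomial.lifts_and_natDegree_eq_and_monic hl (twistProd_monic p ζ y)
  have h2 : Q₀ = annPoly p y := by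
    refine eq_annPoly_of_monic p hy Q₀ hmonic (by rw [hdeg, twistProd_natDegree]) ?_
    rw [hmap, twistProd_eval]
  rw [← h2, hmap]

end Descent

/-! ### The Kronecker factorisation of any witness of `P0` -/

section Factor

variable (K : Type*) [Field K] (p : ℕ) [NeZero p]

theorem coeffMap_comp_evalAt :
    (coeffMap (Int.castRingHom K)).comp (evalAt ℤ (jqModC ℤ)) = evalAt K (jqModC K) := by
  apply Polynomial.ringHom_ext
  · intro a
    simp [evalAt]
  · simp [evalAt, coeffMap_jqModC]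

theorem coeffMap_comp_evalAt_qExpand :
    (coeffMap (Int.castRingHom K)).comp (evalAt ℤ (qExpand ℤ p (jqModC ℤ))) =
      evalAt K (qExpand K p (jqModC K)) := by
  apply Polynomial.ringHom_ext
  · intro a
    simp [evalAt]
  · simp [evalAt, coeffMap_jqModC, coeffMap_qExpand]

theorem qExpand_comp_evalAt (y : LaurentSeries K) :
    (qExpand K p).comp (evalAt K y) = evalAt K (qExpand K p y) := by
  apply Polynomial.ringHom_ext
  · intro a
    simp [evalAt]
  · simp [evalAt]

theorem transfer1 (Φ : ℤ[X][X])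
    (h1 : Φ.eval₂ (evalAt ℤ (jqModC ℤ)) (qExpand ℤ p (jqModC ℤ)) = 0) :
    Φ.eval₂ (evalAt K (jqModC K)) (qExpand K p (jqModC K)) = 0 := by
  have := congrArg (coeffMap (Int.castRingHom K)) h1
  rwa [Polynomial.hom_eval₂, map_zero, coeffMap_comp_evalAt, coeffMap_qExpand,
    coeffMap_jqModC] at this

theorem transfer2 (Φ : ℤ[X][X])
    (h2 : Φ.eval₂ (evalAt ℤ (qExpand ℤ p (jqModC ℤ))) (jqModC ℤ) = 0) :
    Φ.eval₂ (evalAt K (qExpand K p (jqModC K))) (jqModC K) = 0 := by
  have := congrArg (coeffMap (Int.castRingHom K)) h2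
  rwa [Polynomial.hom_eval₂, map_zero, coeffMap_comp_evalAt_qExpand, coeffMap_jqModC] at this

theorem jqModC_ne_qExpand_sq (hp : 2 ≤ p) :
    jqModC K ≠ qExpand K p (qExpand K p (jqModC K)) := by
  intro h
  have h1 : (jqModC K).coeff (-1) = 1 := coeff_jqModC_neg_one K
  rw [h, qExpand_coeff_of_not_dvd] at h1
  · exact zero_ne_one h1
  · intro hd
    have h2 : (p : ℤ) ∣ 1 := by simpa using hd
    have h3 : (p : ℤ) ≤ 1 := Int.le_of_dvd one_pos h2
    omega

/-- **Kronecker factorisation** of any witness `Φ` of `Interface20.P0 p`: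
`Φ(X, j(q^p)) = (X - j(q^(p²))) ∏_{b<p} (X - j(ζ^b q))` over any field containing a primitive `p`-th
root of unity. -/
theorem factor (hp : p.Prime) (ζ : Kˣ) (hζ : IsPrimitiveRoot ζ p) (Φ : ℤ[X][X]) (hmonic : Φ.Monic)
    (hdeg : Φ.natDegree = p + 1)
    (h1 : Φ.eval₂ (evalAt ℤ (jqModC ℤ)) (qExpand ℤ p (jqModC ℤ)) = 0)
    (h2 : Φ.eval₂ (evalAt ℤ (qExpand ℤ p (jqModC ℤ))) (jqModC ℤ) = 0) :
    (Φ.map (evalAt K (jqModC K))).map (qExpand K p) =
      (X - Polynomial.C (qExpand K p (qExpand K p (jqModC K)))) * twistProd p ζ (jqModC K) := by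
  set J := jqModC K with hJ
  set V := qExpand K p with hV
  set G₀ := Φ.map (evalAt K J) with hG₀
  have hG₀monic : G₀.Monic := hmonic.map _
  have hG₀deg : G₀.natDegree = p + 1 := by rw [hG₀, hmonic.natDegree_map, hdeg]
  have hroot : G₀.eval (V J) = 0 := by
    rw [hG₀, eval_map]
    exact transfer1 K p Φ h1
  have hfac : (X - Polynomial.C (V J)) * (G₀ /ₘ (X - Polynomial.C (V J))) = G₀ :=
    mul_divByMonic_eq_iff_isRoot.2 hroot
  set H₀ := G₀ /ₘ (X - Polynomial.C (V J)) with hH₀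
  have hH₀monic : H₀.Monic := by
    have : ((X - Polynomial.C (V J)) * H₀).Monic := by rw [hfac]; exact hG₀monic
    exact (monic_X_sub_C _).of_mul_monic_left this
  have hH₀deg : H₀.natDegree = p := by
    have h3 := (monic_X_sub_C (V J)).natDegree_mul hH₀monic
    rw [hfac, hG₀deg, natDegree_X_sub_C] at h3
    omega
  have h3 : (H₀.map V).eval J = 0 := by
    have h4 : (G₀.map V).eval J = 0 := by
      rw [hG₀, Polynomial.map_map, eval_map, qExpand_comp_evalAt]
      exact transfer2 K p Φ h2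
    rw [← hfac, Polynomial.map_mul, eval_mul, Polynomial.map_sub, map_X, Polynomial.map_C,
      eval_sub, eval_X, eval_C] at h4
    rcases mul_eq_zero.1 h4 with h5 | h5
    · exact absurd (sub_eq_zero.1 h5) (jqModC_ne_qExpand_sq K p hp.two_le)
    · exact h5
  have hjord : J.order = -1 := Fermat.Agent.IG.AN.ModPoly3.order_jqModC K
  have h6 : H₀ = annPoly p J := eq_annPoly_of_monic p hjord H₀ hH₀monic hH₀deg h3
  rw [← hfac, Polynomial.map_mul, Polynomial.map_sub, map_X, Polynomial.map_C, h6,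
    map_annPoly_eq_twistProd p ζ hζ hjord]

end Factor

/-! ### `q`-orders of the coefficients -/

section Orders

variable {K : Type*} [Field K]

theorem Fil.sub_of_coeff_eq {n : ℤ} {f g : LaurentSeries K} (hf : Fil n f) (hg : Fil n g)
    (h : f.coeff n = g.coeff n) : Fil (n + 1) (f - g) := by
  intro k hk
  rw [HahnSeries.coeff_sub]
  rcases lt_or_eq_of_le (show k ≤ n by omega) with h1 | h1
  · rw [hf k h1, hg k h1, sub_zero]
  · rw [h1, h, sub_self]

theorem fil_jqModC : Fil (-1) (jqModC K) := fun _ hk => coeff_jqModC_of_lt K hk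

theorem fil_twistU {n : ℤ} {f : LaurentSeries K} (hf : Fil n f) (u : Kˣ) : Fil n (twistU u f) :=
  fun k hk => by rw [twistU_coeff, hf k hk, mul_zero]

theorem fil_qExpand (p : ℕ) [NeZero p] {n : ℤ} {f : LaurentSeries K} (hf : Fil n f) :
    Fil ((p : ℤ) * n) (qExpand K p f) := by
  intro k hk
  by_cases hd : (p : ℤ) ∣ k
  · obtain ⟨c, rfl⟩ := hd
    rw [qExpand_coeff_mul]
    apply hf
    have hp : (0 : ℤ) < p := by exact_mod_cast Nat.pos_of_ne_zero (NeZero.ne p)
    exact lt_of_mul_lt_mul_left hk hp.le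
  · exact qExpand_coeff_of_not_dvd p f hd

/-- Coefficients of `∏_{b ∈ s} (X - r_b)` with all `r_b ∈ Fil (-1)`. -/
theorem fil_coeff_prod_X_sub_C {ι : Type*} (s : Finset ι) (r : ι → LaurentSeries K)
    (hr : ∀ b ∈ s, Fil (-1) (r b)) (k : ℕ) :
    Fil ((k : ℤ) - s.card) ((∏ b ∈ s, (X - Polynomial.C (r b))).coeff k) := by
  classical
  induction s using Finset.induction_on generalizing k with
  | empty =>
    rw [Finset.prod_empty, Finset.card_empty, Polynomial.coeff_one]
    split_ifs with h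
    · subst h
      simpa using fil_one (R := K)
    · exact fil_zero _
  | insert a s ha ih =>
    have ih' := ih fun b hb => hr b (Finset.mem_insert_of_mem hb)
    have hra := hr a (Finset.mem_insert_self a s)
    rw [Finset.prod_insert ha, Finset.card_insert_of_notMem ha, sub_mul, Polynomial.coeff_sub,
      Polynomial.coeff_C_mul]
    rcases Nat.eq_zero_or_pos k with hk | hk
    · subst hk
      rw [Polynomial.coeff_X_mul_zero, zero_sub]
      refine ((hra.mul (ih' 0)).neg).mono ?_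
      push_cast
      omega
    · obtain ⟨j, rfl⟩ : ∃ j, k = j + 1 := ⟨k - 1, by omega⟩
      rw [Polynomial.coeff_X_mul]
      refine ((ih' j).mono ?_).sub ((hra.mul (ih' (j + 1))).mono ?_)
      · push_cast
        omega
      · push_cast
        omega

theorem coeff_zero_prod_X_sub_C {ι : Type*} (s : Finset ι) (r : ι → LaurentSeries K) :
    (∏ b ∈ s, (X - Polynomial.C (r b))).coeff 0 = ∏ b ∈ s, (-(r b)) := by
  rw [Polynomial.coeff_zero_eq_eval_zero, Polynomial.eval_prod]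
  refine Finset.prod_congr rfl fun b _ => ?_
  rw [eval_sub, eval_X, eval_C, zero_sub]

variable [CharZero K]

/-- Degree bound from a `q`-order bound: if `c(f) ∈ Fil N`, `f = q^(-n) + …`, `c ≠ 0`, then
`n · deg c ≤ -N`. -/
theorem natDegree_bound {n : ℕ} (hn : 1 ≤ n) {f : LaurentSeries K} (hf : Fil (-(n : ℤ)) f)
    (hf1 : f.coeff (-(n : ℤ)) = 1) {c : ℤ[X]} (hc : c ≠ 0) {N : ℤ}
    (hfil : Fil N (evalAt K f c)) : N ≤ -((n : ℤ) * c.natDegree) := by
  by_contra hlt
  rw [not_le] at hlt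
  have h1 := (fil_evalAt hn hf hf1 c c.natDegree le_rfl).2
  rw [hfil _ hlt] at h1
  have h2 : c.coeff c.natDegree ≠ 0 := Polynomial.leadingCoeff_ne_zero.mpr hc
  exact h2 (Int.cast_injective (α := K) (by rw [← h1, Int.cast_zero]))

/-- A product of `2p`-th roots of unity. -/
theorem lead_pow_eq_one (p : ℕ) (ζ : Kˣ) (hζ : ζ ^ p = 1) :
    (∏ b ∈ Finset.range p, (-(((ζ ^ b) ^ (-1 : ℤ) : Kˣ) : K))) ^ (2 * p) = 1 := by
  rw [← Finset.prod_pow]
  refine Finset.prod_eq_one fun b _ => ?_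
  have hu : ((ζ ^ b) ^ (-1 : ℤ)) ^ (2 * p) = (1 : Kˣ) := by
    rw [zpow_neg_one, inv_pow, ← pow_mul, show b * (2 * p) = p * (2 * b) by ring, pow_mul, hζ,
      one_pow, inv_one]
  rw [Even.neg_pow (even_two_mul p), ← Units.val_pow_eq_pow_val, hu, Units.val_one]

end Orders

/-! ### The shape of every witness of `P0` -/

section Main

variable (K : Type*) [Field K] [CharZero K] (p : ℕ) [NeZero p]

theorem shape_of_P0_aux (hp : p.Prime) (ζ : Kˣ) (hζ : IsPrimitiveRoot ζ p) (Φ : ℤ[X][X])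
    (hmonic : Φ.Monic) (hdeg : Φ.natDegree = p + 1)
    (h1 : Φ.eval₂ (evalAt ℤ (jqModC ℤ)) (qExpand ℤ p (jqModC ℤ)) = 0)
    (h2 : Φ.eval₂ (evalAt ℤ (qExpand ℤ p (jqModC ℤ))) (jqModC ℤ) = 0) : Shape p Φ := by
  have hfac := factor K p hp ζ hζ Φ hmonic hdeg h1 h2
  have hp1 : 1 ≤ p := hp.one_lt.le
  have hp2 : (2 : ℤ) ≤ p := by exact_mod_cast hp.two_le
  set J := jqModC K with hJ
  set f := qExpand K p J with hfdef
  have hf : Fil (-(p : ℤ)) f := by
    have := fil_qExpand p (fil_jqModC (K := K))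
    rwa [mul_neg, mul_one] at this
  have hf1 : f.coeff (-(p : ℤ)) = 1 := by
    have : (-(p : ℤ)) = (p : ℤ) * (-1) := by ring
    rw [this, hfdef, qExpand_coeff_mul]
    exact coeff_jqModC_neg_one K
  set rinf := qExpand K p f with hrdef
  have hrinf : Fil (-((p : ℤ) * p)) rinf := by
    have := fil_qExpand p hf
    rwa [mul_neg] at this
  have hrinf1 : rinf.coeff (-((p : ℤ) * p)) = 1 := by
    have : (-((p : ℤ) * p)) = (p : ℤ) * (-(p : ℤ)) := by ring
    rw [this, hrdef, qExpand_coeff_mul, hf1]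
  set Q := twistProd p ζ J with hQdef
  have hQ : ∀ k : ℕ, Fil ((k : ℤ) - p) (Q.coeff k) := by
    intro k
    have := fil_coeff_prod_X_sub_C (Finset.range p) (fun b => twistU (ζ ^ b) J)
      (fun b _ => fil_twistU fil_jqModC _) k
    rwa [Finset.card_range] at this
  have hQp : Q.coeff p = 1 := by
    have := (twistProd_monic p ζ J).coeff_natDegree
    rwa [twistProd_natDegree] at this
  have hcoef : ∀ k : ℕ, evalAt K f (Φ.coeff k) = ((X - Polynomial.C rinf) * Q).coeff k := by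
    intro k
    rw [← hfac, Polynomial.coeff_map, Polynomial.coeff_map, ← RingHom.comp_apply,
      qExpand_comp_evalAt]
  have hG0 : ((X - Polynomial.C rinf) * Q).coeff 0 = -(rinf * Q.coeff 0) := by
    rw [sub_mul, Polynomial.coeff_sub, Polynomial.coeff_X_mul_zero, Polynomial.coeff_C_mul,
      zero_sub]
  have hGs : ∀ j : ℕ, ((X - Polynomial.C rinf) * Q).coeff (j + 1) =
      Q.coeff j - rinf * Q.coeff (j + 1) := by
    intro j
    rw [sub_mul, Polynomial.coeff_sub, Polynomial.coeff_X_mul, Polynomial.coeff_C_mul]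
  have hpp : (4 : ℤ) ≤ (p : ℤ) * p := by nlinarith
  -- (a) degree bounds
  have hdegle : ∀ k : ℕ, 1 ≤ k → (Φ.coeff k).natDegree ≤ p := by
    intro k hk
    by_cases hc : Φ.coeff k = 0
    · rw [hc, natDegree_zero]; exact Nat.zero_le _
    obtain ⟨j, rfl⟩ : ∃ j, k = j + 1 := ⟨k - 1, by omega⟩
    have hfil : Fil (-((p : ℤ) * p) - p + (j + 1)) (evalAt K f (Φ.coeff (j + 1))) := by
      rw [hcoef, hGs]
      refine ((hQ j).mono ?_).sub ((hrinf.mul (hQ (j + 1))).mono ?_)
      · linarith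
      · push_cast
        linarith
    have hb := natDegree_bound hp1 hf hf1 hc hfil
    have h3 : (p : ℤ) * (Φ.coeff (j + 1)).natDegree < (p : ℤ) * (p + 1) := by
      have hj : (0 : ℤ) ≤ j := Int.natCast_nonneg j
      linarith
    have h4 : ((Φ.coeff (j + 1)).natDegree : ℤ) < p + 1 :=
      lt_of_mul_lt_mul_left h3 (by linarith)
    have h5 : (Φ.coeff (j + 1)).natDegree < p + 1 := by exact_mod_cast h4
    omega
  -- (b) the coefficient of `X^p Y^p`
  have hmm : (Φ.coeff p).coeff p = -1 := by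
    obtain ⟨j, hj⟩ : ∃ j, p = j + 1 := ⟨p - 1, by omega⟩
    set c' : ℤ[X] := Φ.coeff p + X ^ p with hc'
    have hev : evalAt K f c' = Q.coeff j + (f ^ p - rinf) := by
      rw [hc', map_add, map_pow, hcoef]
      have hX : evalAt K f X = f := by simp [evalAt]
      rw [hX]
      conv_lhs => rw [hj, hGs, ← hj, hQp, mul_one]
      ring
    have hfp := hf.pow p
    have hfil : Fil (-((p : ℤ) * p) + 1) (evalAt K f c') := by
      rw [hev]
      refine ((hQ j).mono ?_).add ?_
      · have : (j : ℤ) = p - 1 := by rw [hj]; push_cast; ring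
        rw [this]
        linarith
      · have h5 : ((p : ℕ) : ℤ) * (-(p : ℤ)) = -((p : ℤ) * p) := by ring
        rw [h5] at hfp
        exact hfp.1.sub_of_coeff_eq hrinf (by rw [hfp.2, hf1, one_pow, hrinf1])
    have h0 : c'.coeff p = 0 := by
      by_cases hc0 : c' = 0
      · rw [hc0, Polynomial.coeff_zero]
      · have hb := natDegree_bound hp1 hf hf1 hc0 hfil
        apply Polynomial.coeff_eq_zero_of_natDegree_lt
        have h3 : (p : ℤ) * c'.natDegree < (p : ℤ) * p := by linarith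
        have h4 : (c'.natDegree : ℤ) < p := lt_of_mul_lt_mul_left h3 (by linarith)
        exact_mod_cast h4
    rw [hc', Polynomial.coeff_add, Polynomial.coeff_X_pow, if_pos rfl] at h0
    linarith
  -- (c) the constant coefficient
  set w₀ : K := ∏ b ∈ Finset.range p, (-(((ζ ^ b) ^ (-1 : ℤ) : Kˣ) : K)) with hw₀
  have hw : w₀ ^ (2 * p) = 1 := lead_pow_eq_one p ζ hζ.pow_eq_one
  have hw0 : w₀ ≠ 0 := by
    intro h0
    rw [h0, zero_pow (by omega)] at hw
    exact zero_ne_one hw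
  have hQ0 : Fil (-(p : ℤ)) (Q.coeff 0) ∧ (Q.coeff 0).coeff (-(p : ℤ)) = w₀ := by
    have h5 := fil_prod (Finset.range p) (fun b => -(twistU (ζ ^ b) J)) (fun _ => (-1 : ℤ))
      (fun b _ => (fil_twistU fil_jqModC _).neg)
    have h6 : (∑ _i ∈ Finset.range p, (-1 : ℤ)) = -(p : ℤ) := by simp
    rw [h6] at h5
    rw [hQdef, twistProd, coeff_zero_prod_X_sub_C]
    refine ⟨h5.1, ?_⟩
    rw [h5.2]
    refine Finset.prod_congr rfl fun b _ => ?_
    rw [HahnSeries.coeff_neg, twistU_coeff, coeff_jqModC_neg_one, mul_one]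
  have hc0fil : Fil (-((p : ℤ) * p) - p) (evalAt K f (Φ.coeff 0)) ∧
      (evalAt K f (Φ.coeff 0)).coeff (-((p : ℤ) * p) - p) = -w₀ := by
    rw [hcoef, hG0]
    have h7 : -((p : ℤ) * p) - p = -((p : ℤ) * p) + -(p : ℤ) := by ring
    rw [h7]
    refine ⟨(hrinf.mul hQ0.1).neg, ?_⟩
    rw [HahnSeries.coeff_neg, hrinf.coeff_mul hQ0.1, hrinf1, hQ0.2, one_mul]
  have hc0ne : Φ.coeff 0 ≠ 0 := by
    intro h0
    have := hc0fil.2
    rw [h0, map_zero, HahnSeries.coeff_zero] at this
    exact hw0 (neg_eq_zero.mp this.symm)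
  have hd0 : (Φ.coeff 0).natDegree = p + 1 := by
    have hb := natDegree_bound hp1 hf hf1 hc0ne hc0fil.1
    have h3 : (p : ℤ) * (Φ.coeff 0).natDegree ≤ (p : ℤ) * (p + 1) := by linarith
    have h4 : ((Φ.coeff 0).natDegree : ℤ) ≤ p + 1 := le_of_mul_le_mul_left h3 (by linarith)
    have h5 : (Φ.coeff 0).natDegree ≤ p + 1 := by exact_mod_cast h4
    refine le_antisymm h5 ?_
    by_contra hlt
    rw [not_le] at hlt
    have h8 := (fil_evalAt hp1 hf hf1 (Φ.coeff 0) (Φ.coeff 0).natDegree le_rfl).1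
    have h9 : (evalAt K f (Φ.coeff 0)).coeff (-((p : ℤ) * p) - p) = 0 := by
      apply h8
      have : ((Φ.coeff 0).natDegree : ℤ) + 1 ≤ p + 1 := by exact_mod_cast hlt
      nlinarith
    rw [hc0fil.2] at h9
    exact hw0 (neg_eq_zero.mp h9)
  have hlead : IsUnit (Φ.coeff 0).leadingCoeff := by
    have h8 := (fil_evalAt hp1 hf hf1 (Φ.coeff 0) (p + 1) hd0.le).2
    have h9 : -((p : ℤ) * ((p + 1 : ℕ) : ℤ)) = -((p : ℤ) * p) - p := by push_cast; ring
    rw [h9, hc0fil.2] at h8
    have h10 : (((Φ.coeff 0).coeff (p + 1) : ℤ) : K) ^ (2 * p) = 1 := by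
      rw [← h8, pow_mul, neg_sq, ← pow_mul, hw]
    have h11 : ((Φ.coeff 0).coeff (p + 1)) ^ (2 * p) = 1 := by
      apply Int.cast_injective (α := K)
      rw [Int.cast_pow, h10, Int.cast_one]
    rw [Polynomial.leadingCoeff, hd0]
    exact IsUnit.of_pow_eq_one h11 (by omega)
  exact ⟨hmonic, hdeg, hdegle, hmm, hd0, hlead⟩

end Main

/-! ### Final statements -/

section Final

theorem exists_primitiveRoot_unit (p : ℕ) [NeZero p] :
    ∃ ζ : (AlgebraicClosure ℚ)ˣ, IsPrimitiveRoot ζ p := by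
  have : NeZero ((p : ℕ) : AlgebraicClosure ℚ) := ⟨by exact_mod_cast NeZero.ne p⟩
  obtain ⟨ζ, hζ⟩ := HasEnoughRootsOfUnity.exists_primitiveRoot (AlgebraicClosure ℚ) p
  exact ⟨(hζ.isUnit (NeZero.ne p)).unit, IsPrimitiveRoot.coe_units_iff.mp hζ⟩

/-- **Every witness of `Interface20.P0 p` has modular-equation shape**:
`Φ = X^(p+1) + u Y^(p+1) - X^p Y^p + ∑_{i,j ≤ p, (i,j) ≠ (p,p)} a_ij X^i Y^j`, `u = ±1`. -/
theorem shape_of_P0 {p : ℕ} [NeZero p] (hp : p.Prime) (Φ : ℤ[X][X])
    (hmonic : Φ.Monic) (hdeg : Φ.natDegree = p + 1)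
    (h1 : Φ.eval₂ (evalAt ℤ (jqModC ℤ)) (qExpand ℤ p (jqModC ℤ)) = 0)
    (h2 : Φ.eval₂ (evalAt ℤ (qExpand ℤ p (jqModC ℤ))) (jqModC ℤ) = 0) : Shape p Φ := by
  obtain ⟨ζ, hζ⟩ := exists_primitiveRoot_unit p
  exact shape_of_P0_aux (AlgebraicClosure ℚ) p hp ζ hζ Φ hmonic hdeg h1 h2

theorem evalAt_injective (K : Type*) [Field K] [CharZero K] :
    Function.Injective (evalAt K (jqModC K)) := by
  rw [injective_iff_map_eq_zero]
  intro c hc
  by_contra hne
  have hf : Fil (-((1 : ℕ) : ℤ)) (jqModC K) := by simpa using fil_jqModC (K := K)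
  have h1 := (fil_evalAt le_rfl hf (by simpa using coeff_jqModC_neg_one K) c c.natDegree le_rfl).2
  rw [hc, HahnSeries.coeff_zero] at h1
  have h2 : c.coeff c.natDegree ≠ 0 := Polynomial.leadingCoeff_ne_zero.mpr hne
  exact h2 (Int.cast_injective (α := K) (by rw [← h1, Int.cast_zero]))

/-- **Uniqueness** of the modular polynomial: two witnesses of `P0 p` coincide. -/
theorem P0_unique {p : ℕ} [NeZero p] (hp : p.Prime) (Φ Φ' : ℤ[X][X])
    (hmonic : Φ.Monic) (hdeg : Φ.natDegree = p + 1)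
    (h1 : Φ.eval₂ (evalAt ℤ (jqModC ℤ)) (qExpand ℤ p (jqModC ℤ)) = 0)
    (h2 : Φ.eval₂ (evalAt ℤ (qExpand ℤ p (jqModC ℤ))) (jqModC ℤ) = 0)
    (hmonic' : Φ'.Monic) (hdeg' : Φ'.natDegree = p + 1)
    (h1' : Φ'.eval₂ (evalAt ℤ (jqModC ℤ)) (qExpand ℤ p (jqModC ℤ)) = 0)
    (h2' : Φ'.eval₂ (evalAt ℤ (qExpand ℤ p (jqModC ℤ))) (jqModC ℤ) = 0) : Φ = Φ' := by
  obtain ⟨ζ, hζ⟩ := exists_primitiveRoot_unit p
  have e1 := factor (AlgebraicClosure ℚ) p hp ζ hζ Φ hmonic hdeg h1 h2
  have e2 := factor (AlgebraicClosure ℚ) p hp ζ hζ Φ' hmonic' hdeg' h1' h2'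
  have e3 := Polynomial.map_injective _ (qExpand_injective (R := AlgebraicClosure ℚ) p)
    (e1.trans e2.symm)
  exact Polynomial.map_injective _ (evalAt_injective (AlgebraicClosure ℚ)) e3

/-- **The modular polynomial `Φ_p ∈ ℤ[Y][X]`** of prime level `p` (outer variable `X ↔ j(q^p)`,
inner variable `Y ↔ j(q)`); junk value `1` if `p` is not prime. -/
def modPoly (p : ℕ) [NeZero p] : ℤ[X][X] :=
  if h : p.Prime then Classical.choose (Fermat.Agent.IG.AN.ModPoly3.p0 p h) else 1

theorem modPoly_spec {p : ℕ} [NeZero p] (hp : p.Prime) :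
    (modPoly p).Monic ∧ (modPoly p).natDegree = p + 1 ∧
      (modPoly p).eval₂ (evalAt ℤ (jqModC ℤ)) (qExpand ℤ p (jqModC ℤ)) = 0 ∧
      (modPoly p).eval₂ (evalAt ℤ (qExpand ℤ p (jqModC ℤ))) (jqModC ℤ) = 0 := by
  rw [modPoly, dif_pos hp]
  exact Classical.choose_spec (Fermat.Agent.IG.AN.ModPoly3.p0 p hp)

theorem modPoly_monic {p : ℕ} [NeZero p] (hp : p.Prime) : (modPoly p).Monic := (modPoly_spec hp).1

theorem modPoly_natDegree {p : ℕ} [NeZero p] (hp : p.Prime) : (modPoly p).natDegree = p + 1 :=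
  (modPoly_spec hp).2.1

/-- `Φ_p(X := j(q^p), Y := j(q)) = 0` in `ℤ((q))`. -/
theorem modPoly_eval {p : ℕ} [NeZero p] (hp : p.Prime) :
    (modPoly p).eval₂ (evalAt ℤ (jqModC ℤ)) (qExpand ℤ p (jqModC ℤ)) = 0 := (modPoly_spec hp).2.2.1

/-- `Φ_p(X := j(q), Y := j(q^p)) = 0` in `ℤ((q))`. -/
theorem modPoly_eval' {p : ℕ} [NeZero p] (hp : p.Prime) :
    (modPoly p).eval₂ (evalAt ℤ (qExpand ℤ p (jqModC ℤ))) (jqModC ℤ) = 0 := (modPoly_spec hp).2.2.2

/-- **The modular polynomial has modular-equation shape.** -/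
theorem modPoly_shape {p : ℕ} [NeZero p] (hp : p.Prime) : Shape p (modPoly p) :=
  shape_of_P0 hp _ (modPoly_monic hp) (modPoly_natDegree hp) (modPoly_eval hp) (modPoly_eval' hp)

theorem modPoly_unique {p : ℕ} [NeZero p] (hp : p.Prime) (Φ : ℤ[X][X])
    (hmonic : Φ.Monic) (hdeg : Φ.natDegree = p + 1)
    (h1 : Φ.eval₂ (evalAt ℤ (jqModC ℤ)) (qExpand ℤ p (jqModC ℤ)) = 0)
    (h2 : Φ.eval₂ (evalAt ℤ (qExpand ℤ p (jqModC ℤ))) (jqModC ℤ) = 0) : Φ = modPoly p :=
  P0_unique hp Φ (modPoly p) hmonic hdeg h1 h2 (modPoly_monic hp) (modPoly_natDegree hp)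
    (modPoly_eval hp) (modPoly_eval' hp)

/-- The identities over any commutative ring `R`: `Φ_p(j(q^p), j(q)) = 0` in `R((q))`. -/
theorem modPoly_eval_ring (R : Type*) [CommRing R] {p : ℕ} [NeZero p] (hp : p.Prime) :
    (modPoly p).eval₂ (evalAt R (jqModC R)) (qExpand R p (jqModC R)) = 0 := by
  have := congrArg (coeffMap (Int.castRingHom R)) (modPoly_eval hp)
  rw [Polynomial.hom_eval₂, map_zero, coeffMap_qExpand, coeffMap_jqModC] at this
  convert this using 2
  apply Polynomial.ringHom_ext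
  · intro a
    simp [evalAt]
  · simp [evalAt, coeffMap_jqModC]

theorem modPoly_eval_ring' (R : Type*) [CommRing R] {p : ℕ} [NeZero p] (hp : p.Prime) :
    (modPoly p).eval₂ (evalAt R (qExpand R p (jqModC R))) (jqModC R) = 0 := by
  have := congrArg (coeffMap (Int.castRingHom R)) (modPoly_eval' hp)
  rw [Polynomial.hom_eval₂, map_zero, coeffMap_jqModC] at this
  convert this using 2
  apply Polynomial.ringHom_ext
  · intro a
    simp [evalAt]
  · simp [evalAt, coeffMap_jqModC, coeffMap_qExpand]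

end Final

end Fermat.Agent.MAZ.Moduli.ModPolyShape41
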