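/-
Program MAZ (S15), chapter Moduli, brick NP (helper41), part (C): **the modular equations inside the
function fields `FF M`, and the instantiation of helper90's Newton packages** (closing X-HECKE).

* `ev_qExpand`, `ev_qExpand'` : `Φ_n(j(q^(dn)), j(q^d)) = 0 = Φ_n(j(q^d), j(q^(dn)))` in `K((q))`;
* `ev_jdF`, `ev_jdF'` : `Φ_n(j_e, j_d) = 0 = Φ_n(j_d, j_e)` in `FF M` for `e = d n ∣ M`, `n` prime
  (`Φ_n = ModPolyShape41.modPoly n`, `ev` = `NewtonPhi41.ev`);
* `ev_values` : specialisation at a place (values in the sense of `XSpec62.HasValue`);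
* `linkPkg : TubeHecke90.LinkPkg M d e n hd he`, `links hp hm : TubeHecke90.Links p m`;
* **`xHecke_final hp hcZ : XSpec62.XHecke p cZ`** (no hypothesis left);
* `ev_values_level`, `tube_dichotomy`, `tubeZero_of_lt`, `tubeInf_of_lt`, `inTube_cases` : the Newton
  dichotomy in the literal shape of the tubes `InTubeZero` / `InTubeInf` of `XSpec62`.
-/
import Mathlib
import Fermat.Agent.MAZ.Moduli.ModPolyShape41
import Fermat.Agent.MAZ.Point.TubeHecke90
import Fermat.Agent.MAZ.Point.PlanePointSpec82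

set_option autoImplicit false
set_option linter.unusedSectionVars false

open HahnSeries Polynomial ModularCurve AlgebraicCurve

noncomputable section

namespace Fermat.Agent.MAZ.Moduli.ModPolyFF41

open Fermat.Agent.X0 Fermat.Agent.IG.PR.Interface20
open Fermat.Agent.MAZ.Moduli.NewtonPhi41 Fermat.Agent.MAZ.Moduli.ModPolyShape41
open Fermat.Agent.MAZ.Spec.XSpec62 Fermat.Agent.MAZ.Point.TubeHecke90
open Fermat.Agent.MAZ.Point.PlanePointSpec82

/-! ### `ev` and ring homomorphisms -/

theorem map_ev {L L' : Type*} [Field L] [Field L'] (g : L →+* L') (Φ : ℤ[X][X]) (x y : L) :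
    g (ev Φ x y) = ev Φ (g x) (g y) := by
  rw [ev, ev, Polynomial.hom_eval₂]
  congr 1
  apply Polynomial.ringHom_ext
  · intro a
    simp
  · simp

/-! ### The modular equations between `j(q^d)` and `j(q^(d n))` in `K((q))` -/

section Series

variable (K : Type*) [Field K] (n d : ℕ) [NeZero n] [NeZero d]

/-- `Φ_n(X := j(q^(dn)), Y := j(q^d)) = 0` in `K((q))`. -/
theorem ev_qExpand (hn : n.Prime) :
    ev (modPoly n) (qExpand K (d * n) (jqModC K)) (qExpand K d (jqModC K)) = 0 := by
  have h : ev (modPoly n) (qExpand K n (jqModC K)) (jqModC K) = 0 := modPoly_eval_ring K hn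
  have h2 := congrArg (qExpand K d) h
  rwa [map_ev, map_zero, qExpand_qExpand] at h2

/-- `Φ_n(X := j(q^d), Y := j(q^(dn))) = 0` in `K((q))`. -/
theorem ev_qExpand' (hn : n.Prime) :
    ev (modPoly n) (qExpand K d (jqModC K)) (qExpand K (d * n) (jqModC K)) = 0 := by
  have h : ev (modPoly n) (jqModC K) (qExpand K n (jqModC K)) = 0 := modPoly_eval_ring' K hn
  have h2 := congrArg (qExpand K d) h
  rwa [map_ev, map_zero, qExpand_qExpand] at h2

end Series

/-! ### The modular equations inside the function fields `FF M` -/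

section FFM

variable (M d e n : ℕ) [NeZero M] [NeZero d] [NeZero e] [NeZero n]

/-- **`Φ_n(X := j_e, Y := j_d) = 0` in `FF M`** for `e = d n ∣ M`, `n` prime. -/
theorem ev_jdF (hn : n.Prime) (hen : e = d * n) (hd : d ∣ M) (he : e ∣ M) :
    ev (modPoly n) (jdF M e he) (jdF M d hd) = 0 := by
  subst hen
  apply (algebraMap (FF M) (LaurentSeries Kbar)).injective
  rw [map_ev, map_zero]
  show ev (modPoly n) ((jdF M (d * n) he : FF M) : LaurentSeries Kbar)
    ((jdF M d hd : FF M) : LaurentSeries Kbar) = 0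
  rw [Fermat.Agent.ES.KRON.Conjugates11.coe_jdF_eq, Fermat.Agent.ES.KRON.Conjugates11.coe_jdF_eq,
    jqK_eq_jqModC]
  exact ev_qExpand Kbar n d hn

/-- **`Φ_n(X := j_d, Y := j_e) = 0` in `FF M`** for `e = d n ∣ M`, `n` prime. -/
theorem ev_jdF' (hn : n.Prime) (hen : e = d * n) (hd : d ∣ M) (he : e ∣ M) :
    ev (modPoly n) (jdF M d hd) (jdF M e he) = 0 := by
  subst hen
  apply (algebraMap (FF M) (LaurentSeries Kbar)).injective
  rw [map_ev, map_zero]
  show ev (modPoly n) ((jdF M d hd : FF M) : LaurentSeries Kbar)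
    ((jdF M (d * n) he : FF M) : LaurentSeries Kbar) = 0
  rw [Fermat.Agent.ES.KRON.Conjugates11.coe_jdF_eq, Fermat.Agent.ES.KRON.Conjugates11.coe_jdF_eq,
    jqK_eq_jqModC]
  exact ev_qExpand' Kbar n d hn

/-- Specialisation at a place: the values `a` of `j_e` and `a'` of `j_d` satisfy
`Φ_n(X := a', Y := a) = 0` (and the symmetric relation). -/
theorem ev_values (hn : n.Prime) (hen : e = d * n) (hd : d ∣ M) (he : e ∣ M)
    (w : Place Qb (FF M)) {a a' : Qb} (ha : HasValue w (jdF M e he) a)
    (ha' : HasValue w (jdF M d hd) a') :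
    ev (modPoly n) a' a = 0 ∧ ev (modPoly n) a a' = 0 :=
  ⟨ev_eq_zero_of_isValAt _ (ev_jdF' M d e n hn hen hd he) (isValAt_of_hasValue ha')
      (isValAt_of_hasValue ha),
    ev_eq_zero_of_isValAt _ (ev_jdF M d e n hn hen hd he) (isValAt_of_hasValue ha)
      (isValAt_of_hasValue ha')⟩

/-- **helper90's Newton package** `TubeHecke90.LinkPkg` for the pair `(j_d, j_e)`, `e = d n`. -/
theorem linkPkg (hn : n.Prime) (hen : e = d * n) (hd : d ∣ M) (he : e ∣ M) :
    LinkPkg M d e n hd he := by
  have hsh := modPoly_shape hn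
  have hrel := ev_jdF' M d e n hn hen hd he
  have h1 : 1 ≤ n := hn.one_lt.le
  refine ⟨?_, ?_, ?_, ?_⟩
  · intro w hw
    exact FF.ffp_ord_nonneg_of_mem w
      ((mem_iff_mem w.toValuationSubring h1 hsh hrel).mpr (FF.ffp_mem_of_ord_nonneg w hw))
  · intro w hw
    exact FF.ffp_ord_nonneg_of_mem w
      ((mem_iff_mem w.toValuationSubring h1 hsh hrel).mp (FF.ffp_mem_of_ord_nonneg w hw))
  · intro A w a a' ha ha' hnot
    exact (dichotomy_of_notMem A h1 hsh (ev_values M d e n hn hen hd he w ha ha').1 hnot).2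
  · intro A w a a' ha ha' hnot
    exact (dichotomy_of_notMem' A h1 hsh (ev_values M d e n hn hen hd he w ha ha').1 hnot).2

end FFM

/-! ### The three links at level `p m` and the final form of (X-HECKE) -/

section Final

variable (p m : ℕ) [NeZero p] [NeZero m]

theorem links (hp : p.Prime) (hm : m.Prime) : Links p m where
  l1 := linkPkg (p * m) 1 m m hm (one_mul m).symm _ _
  l2 := linkPkg (p * m) p (p * m) m hm rfl _ _
  l3 := linkPkg (p * m) 1 p p hp (one_mul p).symm _ _

variable {p}

/-- **(X-HECKE), final form**: the tubes of the two cusps are stable under all `T_m`, `m ≠ p`. -/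
theorem xHecke_final (hp : p.Prime) {cZ : Place Qb (FF p)} (hcZ : IsCuspZero p cZ) :
    XHecke p cZ :=
  xHecke hp hcZ fun m _ hm _ => links p m hp hm

/-! ### The tube dichotomy at level `p` (vocabulary of `XSpec62`) -/

/-- Values `a` of `j` and `b` of `j_p` at a place of `FF p` satisfy `Φ_p(X := b, Y := a) = 0` and
`Φ_p(X := a, Y := b) = 0`. -/
theorem ev_values_level (hp : p.Prime) (x : Place Qb (FF p)) {a b : Qb}
    (hja : HasValue x (jF p) a) (hjb : HasValue x (jpF p) b) :
    ev (modPoly p) b a = 0 ∧ ev (modPoly p) a b = 0 := by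
  have h := ev_values p 1 p p hp (one_mul p).symm (one_dvd p) dvd_rfl x hjb hja
  exact ⟨h.2, h.1⟩

/-- helper62's corollary (table #1628 item 3): the Newton dichotomy in the literal shape of the
tubes. -/
theorem tube_dichotomy (hp : p.Prime) (A : ValuationSubring Qb) {a b : Qb}
    (h0 : ev (modPoly p) b a = 0) (ha : a ∉ A) :
    A.valuation b = A.valuation (a ^ p) ∨ A.valuation (b ^ p) = A.valuation a := by
  rw [map_pow, map_pow]
  exact (dichotomy_of_notMem A hp.one_lt.le (modPoly_shape hp) h0 ha).2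

/-- If `|b| < |a|^p` then `(a, b)` is in the tube of `0`. -/
theorem tubeZero_of_lt (hp : p.Prime) (A : ValuationSubring Qb) {a b : Qb}
    (h0 : ev (modPoly p) b a = 0) (ha : a ∉ A) (hlt : A.valuation b < A.valuation (a ^ p)) :
    A.valuation (b ^ p) = A.valuation a :=
  (tube_dichotomy hp A h0 ha).resolve_left hlt.ne

/-- If `|a| < |b|^p` then `(a, b)` is in the tube of `∞`. -/
theorem tubeInf_of_lt (hp : p.Prime) (A : ValuationSubring Qb) {a b : Qb}
    (h0 : ev (modPoly p) b a = 0) (ha : a ∉ A) (hlt : A.valuation a < A.valuation (b ^ p)) :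
    A.valuation b = A.valuation (a ^ p) :=
  (tube_dichotomy hp A h0 ha).resolve_right hlt.ne'

/-- **Every place of `FF p` with `|j(x)|_A > 1` lies in exactly one of the two tubes.** -/
theorem inTube_cases (hp : p.Prime) (A : ValuationSubring Qb) (cZ x : Place Qb (FF p)) {a b : Qb}
    (hja : HasValue x (jF p) a) (hjb : HasValue x (jpF p) b) (ha : a ∉ A) :
    InTubeInf A x ∨ InTubeZero A cZ x := by
  rcases tube_dichotomy hp A (ev_values_level hp x hja hjb).1 ha with h | h
  · exact Or.inl (Or.inr ⟨a, b, hja, hjb, ha, h⟩)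
  · exact Or.inr (Or.inr ⟨a, b, hja, hjb, ha, h⟩)

end Final

end Fermat.Agent.MAZ.Moduli.ModPolyFF41
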