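/-
Program MAZ (S15), chapter MODULI, brick 11 of the X-side table (B2, ring form) (helper2).

`NodalPsi2.preΨ'_nodal` (odd division polynomials of the nodal cubic `y² + a₁xy = x³ + a₂x²`)
over an ARBITRARY commutative ring (no `CharZero`, no `b₂ ≠ 0`): universal case `ℤ[t] ⊂ Frac ℤ[t]`,
then base change.  Also the translated form: a Weierstrass cubic with a singular point `(r, t)`.
-/
import Mathlib
import Fermat.Agent.MAZ.Moduli.NodalPsi2

set_option autoImplicit false

open Polynomial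

namespace Fermat.Agent.MAZ.Moduli.NodalPsiRing2

open Fermat.Agent.MAZ.Moduli.NodalPsi2

section Maps

variable {R S : Type*} [CommRing R] [CommRing S] (f : R →+* S) (β : R)

theorem map_pB : (pB β).map f = pB (f β) := by
  have h4 : f 4 = 4 := map_ofNat f 4
  simp [pB, h4]

theorem map_pC : (pC β).map f = pC (f β) := by
  simp [pC, Polynomial.map_ofNat]

theorem map_pD : (pD β).map f = pD (f β) := by
  simp [pD, Polynomial.map_ofNat]

end Maps

section Universal

/-- The universal case `R = ℤ[t]`, `β = t`. -/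
theorem preNormEDS'_poly_univ (m : ℕ) :
    preNormEDS' (pB (X : ℤ[X])) (pC (X : ℤ[X])) (pD (X : ℤ[X])) (2 * m + 1) =
      X ^ (m * (2 * m + 1)) * Hh (X : ℤ[X]) m := by
  set K := FractionRing ℤ[X] with hK
  have hinj : Function.Injective (algebraMap ℤ[X] K) := IsFractionRing.injective ℤ[X] K
  have : CharZero K := charZero_of_injective_algebraMap hinj
  have hβ : algebraMap ℤ[X] K (X : ℤ[X]) ≠ 0 := by
    intro h
    exact X_ne_zero (hinj (by rw [h, map_zero]))
  apply Polynomial.map_injective (algebraMap ℤ[X] K) hinj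
  have h1 := preNormEDS'_poly_eq (K := K) hβ m
  have h2 : (preNormEDS' (pB (X : ℤ[X])) (pC (X : ℤ[X])) (pD (X : ℤ[X])) (2 * m + 1)).map
      (algebraMap ℤ[X] K) =
      preNormEDS' (pB (algebraMap ℤ[X] K X)) (pC (algebraMap ℤ[X] K X))
        (pD (algebraMap ℤ[X] K X)) (2 * m + 1) := by
    have := map_preNormEDS' (Polynomial.mapRingHom (algebraMap ℤ[X] K)) (pB (X : ℤ[X]))
      (pC (X : ℤ[X])) (pD (X : ℤ[X])) (2 * m + 1)
    simp only [Polynomial.coe_mapRingHom] at this
    rw [this, map_pB, map_pC, map_pD]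
  rw [h2, h1, Polynomial.map_mul, Polynomial.map_pow, Polynomial.map_X, map_Hh]

end Universal

section Ring

variable {R : Type*} [CommRing R]

/-- **The odd terms of the pre-normalised EDS of a nodal cubic, as polynomials, over any
commutative ring.** -/
theorem preNormEDS'_poly_ring (β : R) (m : ℕ) :
    preNormEDS' (pB β) (pC β) (pD β) (2 * m + 1) = X ^ (m * (2 * m + 1)) * Hh β m := by
  set ψ : ℤ[X] →+* R := Polynomial.eval₂RingHom (Int.castRingHom R) β with hψ
  have hX : ψ X = β := by simp [hψ]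
  have h1 := congrArg (Polynomial.map ψ) (preNormEDS'_poly_univ m)
  have h2 : (preNormEDS' (pB (X : ℤ[X])) (pC (X : ℤ[X])) (pD (X : ℤ[X])) (2 * m + 1)).map ψ =
      preNormEDS' (pB β) (pC β) (pD β) (2 * m + 1) := by
    have := map_preNormEDS' (Polynomial.mapRingHom ψ) (pB (X : ℤ[X]))
      (pC (X : ℤ[X])) (pD (X : ℤ[X])) (2 * m + 1)
    simp only [Polynomial.coe_mapRingHom] at this
    rw [this, map_pB, map_pC, map_pD, hX]
  rw [h2, Polynomial.map_mul, Polynomial.map_pow, Polynomial.map_X, map_Hh, hX] at h1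
  exact h1

/-- **Odd division polynomials of a nodal cubic with the node at the origin, over any commutative
ring.** -/
theorem preΨ'_nodal_ring (W : WeierstrassCurve R) (h3 : W.a₃ = 0) (h4 : W.a₄ = 0)
    (h6 : W.a₆ = 0) (m : ℕ) :
    W.preΨ' (2 * m + 1) = X ^ (m * (2 * m + 1)) * Hh W.b₂ m := by
  have e4 : W.b₄ = 0 := by rw [WeierstrassCurve.b₄, h3, h4]; ring
  have e6 : W.b₆ = 0 := by rw [WeierstrassCurve.b₆, h3, h6]; ring
  have e8 : W.b₈ = 0 := by rw [WeierstrassCurve.b₈, h3, h4, h6]; ring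
  have hB : W.Ψ₂Sq ^ 2 = pB W.b₂ := by
    rw [WeierstrassCurve.Ψ₂Sq, e4, e6, pB]
    simp
  have hC : W.Ψ₃ = pC W.b₂ := by
    rw [WeierstrassCurve.Ψ₃, e4, e6, e8, pC]
    simp
  have hD : W.preΨ₄ = pD W.b₂ := by
    rw [WeierstrassCurve.preΨ₄, e4, e6, e8, pD]
    simp
  rw [WeierstrassCurve.preΨ', hB, hC, hD]
  exact preNormEDS'_poly_ring W.b₂ m

end Ring

end Fermat.Agent.MAZ.Moduli.NodalPsiRing2
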