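/-
Program MAZ (S15), chapter MODULI, brick 11 of the X-side table (matching part of MOD-LOC (ii))
(helper2).

**Matching without roots of unity and without a reduction homomorphism.**

(1) `match_factor`: over a field `k`, if `f = c ∏_{t ∈ T} (X - t) = (X - r)^N g` with `g(r) ≠ 0`, then
    `g = c ∏_{t ∈ T, t ≠ r} (X - t)` and `r` occurs exactly `N` times in `T`.
(2) `nodal_match`: for a Weierstrass cubic `W` over a field with a singular point `(r, t)` and
    `c₄ ≠ 0`, `p = 2m+1 ≠ 0` in `k`, and any multiset `T` with `preΨ'_p(W) = p ∏_{x ∈ T} (X - x)`: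
    exactly `m` members of `T` (with multiplicity) are `≠ r`, and
    `c₄ + 240 Σ_{x ∈ T, x ≠ r} (6x² + b₂x + b₄) = p⁴ c₄`.
(3) `sum_pairing`: `Σ_{k=1}^{p-1} F(x(k•Q)) = 2 Σ_{x ∈ M} F(x)` for a point `Q` of odd order `p = 2m+1`,
    an even function `x` separating `±`-classes on `⟨Q⟩ ∖ 0`, and a multiset `M` of cardinality `m`
    containing all `x(k•Q)`.
-/
import Mathlib
import Fermat.Agent.MAZ.Moduli.NodalSums2
import Fermat.Agent.MAZ.Moduli.NodalTrans2

set_option autoImplicit false

open Polynomial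

namespace Fermat.Agent.MAZ.Moduli.RootMatch2

open Fermat.Agent.MAZ.Moduli.NodalPsi2 Fermat.Agent.MAZ.Moduli.NodalCoeff2
open Fermat.Agent.MAZ.Moduli.NodalSums2 Fermat.Agent.MAZ.Moduli.NodalTrans2

section Match

variable {k : Type*} [Field k]

theorem rootProd_filter (T : Multiset k) (r : k) [DecidablePred (fun x : k => x = r)] :
    rootProd T = (X - C r) ^ (T.filter (fun x => x = r)).card *
      rootProd (T.filter (fun x => ¬ x = r)) := by
  induction T using Multiset.induction_on with
  | empty => simp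
  | cons a T ih =>
    by_cases ha : a = r
    · rw [Multiset.filter_cons_of_pos (p := fun x => x = r) _ ha,
        Multiset.filter_cons_of_neg (p := fun x => ¬ x = r) _ (not_not.mpr ha),
        Multiset.card_cons, rootProd_cons, ih, ha]
      ring
    · rw [Multiset.filter_cons_of_neg (p := fun x => x = r) _ ha,
        Multiset.filter_cons_of_pos (p := fun x => ¬ x = r) _ ha,
        rootProd_cons, rootProd_cons, ih]
      ring

theorem eval_rootProd (T : Multiset k) (r : k) :
    (rootProd T).eval r = (T.map (fun t => r - t)).prod := by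
  induction T using Multiset.induction_on with
  | empty => simp
  | cons a T ih => rw [rootProd_cons, eval_mul, ih]; simp

theorem eval_rootProd_ne_zero (T : Multiset k) (r : k) (h : ∀ t ∈ T, t ≠ r) :
    (rootProd T).eval r ≠ 0 := by
  rw [eval_rootProd]
  intro h0
  rw [Multiset.prod_eq_zero_iff, Multiset.mem_map] at h0
  obtain ⟨t, ht, h1⟩ := h0
  exact h t ht (sub_eq_zero.mp h1).symm

/-- **Matching of the prime-to-`(X - r)` parts.** -/
theorem match_factor (f g : k[X]) (r c : k) (N : ℕ) (T : Multiset k) (hc : c ≠ 0)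
    [DecidablePred (fun x : k => x = r)]
    (hf1 : f = C c * (T.map (fun t => X - C t)).prod)
    (hf2 : f = (X - C r) ^ N * g) (hg : g.eval r ≠ 0) :
    g = C c * ((T.filter (fun x => ¬ x = r)).map (fun t => X - C t)).prod ∧
      (T.filter (fun x => x = r)).card = N := by
  change f = C c * rootProd T at hf1
  change g = C c * rootProd (T.filter (fun x => ¬ x = r)) ∧ _
  set a := (T.filter (fun x => x = r)).card with ha
  set h : k[X] := C c * rootProd (T.filter (fun x => ¬ x = r)) with hh
  have hhr : h.eval r ≠ 0 := by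
    rw [hh, eval_mul, eval_C]
    refine mul_ne_zero hc (eval_rootProd_ne_zero _ r ?_)
    intro t ht
    exact (Multiset.mem_filter.mp ht).2
  have hh0 : h ≠ 0 := by
    intro h0; rw [h0] at hhr; simp at hhr
  have hg0 : g ≠ 0 := by
    intro h0; rw [h0] at hg; simp at hg
  have key : h * (X - C r) ^ a = g * (X - C r) ^ N := by
    rw [mul_comm g, ← hf2, hf1, rootProd_filter T r, hh]
    ring
  have haN : a = N := by
    have h1 := rootMultiplicity_mul_X_sub_C_pow (a := r) (n := a) hh0
    have h2 := rootMultiplicity_mul_X_sub_C_pow (a := r) (n := N) hg0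
    rw [key, h2] at h1
    rw [rootMultiplicity_eq_zero (by simpa [IsRoot] using hg),
      rootMultiplicity_eq_zero (by simpa [IsRoot] using hhr)] at h1
    omega
  refine ⟨?_, haN⟩
  rw [haN] at key
  exact (mul_right_cancel₀ (pow_ne_zero N (X_sub_C_ne_zero r)) key).symm

end Match

section Nodal

variable {k : Type*} [Field k]

theorem eval_zero_Hh {R : Type*} [CommRing R] (β : R) : ∀ m : ℕ, (Hh β m).eval 0 = β ^ m := by
  intro m
  induction m using Nat.strong_induction_on with
  | _ m ih =>
    match m with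
    | 0 => simp
    | 1 => simp
    | (m + 2) =>
      rw [Hh_succ_succ, eval_sub, eval_mul, eval_mul, ih (m + 1) (by omega)]
      simp
      ring

theorem rootProd_map_sub (T : Multiset k) (r : k) :
    rootProd (T.map (fun x => x - r)) = (rootProd T).comp (X + C r) := by
  induction T using Multiset.induction_on with
  | empty => simp
  | cons a T ih =>
    rw [Multiset.map_cons, rootProd_cons, rootProd_cons, ih, mul_comp, sub_comp, X_comp, C_comp,
      map_sub]
    ring

/-- **Matching on a nodal cubic**: `(r, t)` a singular point of `W` over a field `k`, `c₄ ≠ 0`,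
`p = 2m+1 ≠ 0` in `k`, and `T` any multiset with `preΨ'_p(W) = p ∏_{x ∈ T} (X - x)`. -/
theorem nodal_match (W : WeierstrassCurve k) (r t : k)
    (hy : 2 * t + W.a₁ * r + W.a₃ = 0)
    (hx : W.a₁ * t - 3 * r ^ 2 - 2 * W.a₂ * r - W.a₄ = 0)
    (hf : t ^ 2 + W.a₁ * r * t + W.a₃ * t - r ^ 3 - W.a₂ * r ^ 2 - W.a₄ * r - W.a₆ = 0)
    (hc4 : W.c₄ ≠ 0) (m : ℕ) (hp : ((2 * m + 1 : ℕ) : k) ≠ 0) (T : Multiset k)
    [DecidablePred (fun x : k => x = r)]
    (hT : W.preΨ' (2 * m + 1) = C ((2 * m + 1 : ℕ) : k) * (T.map (fun x => X - C x)).prod) :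
    (T.filter (fun x => ¬ x = r)).card = m ∧
    (T.filter (fun x => x = r)).card = m * (2 * m + 1) ∧
    W.c₄ + 240 * ((T.filter (fun x => ¬ x = r)).map
        (fun x => 6 * x ^ 2 + W.b₂ * x + W.b₄)).sum = ((2 * m + 1 : ℕ) : k) ^ 4 * W.c₄ := by
  set β : k := W.b₂ + 12 * r with hβ
  have e4 : W.b₄ + r * W.b₂ + 6 * r ^ 2 = 0 := by
    simp only [WeierstrassCurve.b₂, WeierstrassCurve.b₄]
    linear_combination (-2 : k) * hx + W.a₁ * hy
  have hc4β : W.c₄ = β ^ 2 := by
    rw [WeierstrassCurve.c₄, hβ]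
    linear_combination (-24 : k) * e4
  have hβ0 : β ≠ 0 := by
    intro h0; rw [hc4β, h0] at hc4; simp at hc4
  have hnod := preΨ'_nodal_at W r t hy hx hf m
  rw [← hβ] at hnod
  have hg : ((Hh β m).comp (X - C r)).eval r ≠ 0 := by
    rw [eval_comp]
    simp only [eval_sub, eval_X, eval_C, sub_self]
    rw [eval_zero_Hh]
    exact pow_ne_zero m hβ0
  obtain ⟨h1, h2⟩ := match_factor (W.preΨ' (2 * m + 1)) ((Hh β m).comp (X - C r)) r
    ((2 * m + 1 : ℕ) : k) (m * (2 * m + 1)) T hp hT hnod hg
  set T' := T.filter (fun x => ¬ x = r) with hT'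
  change (Hh β m).comp (X - C r) = C ((2 * m + 1 : ℕ) : k) * rootProd T' at h1
  -- translate back
  have h3 : Hh β m = C ((2 * m + 1 : ℕ) : k) * rootProd (T'.map (fun x => x - r)) := by
    rw [rootProd_map_sub, ← C_comp (a := ((2 * m + 1 : ℕ) : k)) (p := X + C r), ← mul_comp, ← h1,
      comp_assoc]
    simp
  have hcard := card_of_Hh_eq β m hp _ h3
  rw [Multiset.card_map] at hcard
  have hsum := velu_sum β m hp _ h3
  rw [Multiset.map_map] at hsum
  refine ⟨hcard, h2, ?_⟩
  have hfun : (fun x => 6 * x ^ 2 + W.b₂ * x + W.b₄) =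
      ((fun s => 6 * s ^ 2 + β * s) ∘ fun x => x - r) := by
    funext x
    simp only [Function.comp_apply, hβ]
    linear_combination e4
  rw [hfun, hsum, hc4β]
  ring

end Nodal

end Fermat.Agent.MAZ.Moduli.RootMatch2
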