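/-
Program MAZ (S15), chapter MODULI, brick 11 of the X-side table (helper2): pairing `±P` in a cyclic
group of odd order (Mathlib only).  Used to pass from `Σ_{k=1}^{p-1} t(k•Q)` to twice the sum over
the `x`-coordinates (the multiset of roots of the prime-to-node part of `preΨ'_p`).
-/
import Mathlib

set_option autoImplicit false

namespace Fermat.Agent.MAZ.Moduli.SumPairing2

open Finset

/-- **Pairing `±P` in a cyclic group of odd order.**  `Q` of order `p = 2m+1` in an additive group,
`x` an even function separating the `±`-classes of nonzero elements, `M` a multiset of cardinality `m`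
containing all `x(k•Q)`, `1 ≤ k < p`.  Then `M` is duplicate-free, consists exactly of the `x(k•Q)`,
and `Σ_{k=1}^{p-1} F(x(k•Q)) = 2 Σ_{y ∈ M} F(y)`. -/
theorem sum_pairing {G K L : Type*} [AddGroup G] [DecidableEq K] [AddCommMonoid L]
    (Q : G) (m : ℕ) (hQ : addOrderOf Q = 2 * m + 1) (x : G → K)
    (hneg : ∀ P : G, x (-P) = x P)
    (hinj : ∀ P P' : G, P ≠ 0 → P' ≠ 0 → x P = x P' → P = P' ∨ P = -P')
    (M : Multiset K) (hM : Multiset.card M = m)
    (hmem : ∀ k ∈ Finset.Ico 1 (2 * m + 1), x (k • Q) ∈ M) (F : K → L) :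
    ∑ k ∈ Finset.Ico 1 (2 * m + 1), F (x (k • Q)) = 2 • (M.map F).sum ∧ M.Nodup ∧
      M = ((Finset.Ico 1 (m + 1)).image (fun k => x (k • Q))).val := by
  have hpQ : (2 * m + 1) • Q = 0 := by rw [← hQ]; exact addOrderOf_nsmul_eq_zero Q
  have hne : ∀ i : ℕ, 0 < i → i < 2 * m + 1 → i • Q ≠ 0 := by
    intro i h0 h1 h
    have := addOrderOf_dvd_of_nsmul_eq_zero h
    rw [hQ] at this
    exact absurd (Nat.le_of_dvd h0 this) (by omega)
  -- injectivity on the half system
  have hinjOn : Set.InjOn (fun k : ℕ => x (k • Q)) (Finset.Ico 1 (m + 1) : Finset ℕ) := by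
    intro i hi j hj hij
    simp only [Finset.coe_Ico, Set.mem_Ico] at hi hj
    simp only at hij
    rcases hinj _ _ (hne i (by omega) (by omega)) (hne j (by omega) (by omega)) hij with h | h
    · exact nsmul_injOn_Iio_addOrderOf (x := Q) (by rw [hQ]; simp; omega)
        (by rw [hQ]; simp; omega) h
    · exfalso
      have h2 : (i + j) • Q = 0 := by rw [add_nsmul, h]; simp
      exact hne (i + j) (by omega) (by omega) h2
  set I := (Finset.Ico 1 (m + 1)).image (fun k => x (k • Q)) with hI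
  have hIcard : I.card = m := by
    rw [hI, Finset.card_image_of_injOn hinjOn]; simp
  have hIle : I.val ≤ M := by
    rw [Multiset.le_iff_subset I.nodup]
    intro y hy
    rw [Finset.mem_val, hI, Finset.mem_image] at hy
    obtain ⟨k, hk, rfl⟩ := hy
    rw [Finset.mem_Ico] at hk
    exact hmem k (by rw [Finset.mem_Ico]; omega)
  have hIM : I.val = M :=
    Multiset.eq_of_le_of_card_le hIle (by rw [hM]; exact le_of_eq hIcard.symm)
  have hnodup : M.Nodup := hIM ▸ I.nodup
  refine ⟨?_, hnodup, hIM.symm⟩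
  -- the sum
  have hsumM : (M.map F).sum = ∑ k ∈ Finset.Ico 1 (m + 1), F (x (k • Q)) := by
    rw [← hIM]
    change ∑ y ∈ I, F y = _
    rw [hI, Finset.sum_image hinjOn]
  have hsplit : ∑ k ∈ Finset.Ico 1 (2 * m + 1), F (x (k • Q)) =
      ∑ k ∈ Finset.Ico 1 (m + 1), F (x (k • Q)) + ∑ k ∈ Finset.Ico (m + 1) (2 * m + 1), F (x (k • Q)) :=
    (Finset.sum_Ico_consecutive _ (by omega) (by omega)).symm
  have hrefl : ∑ k ∈ Finset.Ico (m + 1) (2 * m + 1), F (x (k • Q)) =
      ∑ k ∈ Finset.Ico 1 (m + 1), F (x (k • Q)) := by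
    have h1 := Finset.sum_Ico_reflect (fun j => F (x (j • Q))) 1 (m := m + 1) (n := 2 * m + 1)
      (by omega)
    have e1 : 2 * m + 1 + 1 - (m + 1) = m + 1 := by omega
    have e2 : 2 * m + 1 + 1 - 1 = 2 * m + 1 := by omega
    rw [e1, e2] at h1
    rw [← h1]
    apply Finset.sum_congr rfl
    intro k hk
    rw [Finset.mem_Ico] at hk
    have : (2 * m + 1 - k) • Q = -(k • Q) := by
      rw [eq_neg_iff_add_eq_zero, ← add_nsmul]
      have : 2 * m + 1 - k + k = 2 * m + 1 := by omega
      rw [this, hpQ]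
    rw [this, hneg]
  rw [hsplit, hrefl, hsumM, two_nsmul]

end Fermat.Agent.MAZ.Moduli.SumPairing2
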